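import Fermat.Agent.S55.L.UnrInv.Inputs
import Fermat.Agent.S55.L.FiniteExt286
import Fermat.Agent.S55.L.RingOfIntegersUnique775
import Fermat.Agent.S55.Local.H775.InertiaCore

/-!
# S55, layer L, leaves UI-INT and UI-INERTIA (helper775)

* `integersComap775 : UnrInv.IntegersComapSpec` (`B ∩ K = A`);
* `unramifiedInertia775 : UnrInv.UnramifiedInertiaSpec` (the inertia group of an unramified
  extension is trivial);
* `mem_iff_isIntegral775`: the ring of integers of a finite extension is the integral closure.

Route: uniqueness of the ring of integers (`ringOfIntegersUnique775`), the integral closure is a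
ring of integers (`exists_ringOfIntegers_eq_integralClosure286`), and
`Local.H775.card_inertia_inf_eq` (Mathlib `Ideal.card_inertia_eq_ramificationIdxIn`).
-/

set_option autoImplicit false
set_option linter.unusedSectionVars false
set_option linter.style.haveILetI false

namespace Fermat.Agent.S55.L.UnrInv

open Fermat.Agent.S55.L IsLocalRing

section Generic

variable {K L : Type} [Field K] [Field L] [Algebra K L] [FiniteDimensional K L] [IsLocalFld K]

/-- The ring of integers of a finite extension is the integral closure of the ring of integers of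
the base field, and it meets the base field in the ring of integers of the base field. -/
theorem mem_iff_isIntegral775 (A : ValuationSubring K) (B : ValuationSubring L)
    (hA : IsLocalRingOfIntegers A) (hB : IsLocalRingOfIntegers B)
    [Algebra A L] [IsScalarTower A K L] :
    (∀ x : L, x ∈ B ↔ IsIntegral A x) ∧ (∀ x : K, algebraMap K L x ∈ B ↔ x ∈ A) := by
  haveI : CharZero K := IsLocalFld.charZero
  haveI : IsLocalFld L := finiteExt286 K L
  obtain ⟨B₁, hB₁, h1, h2⟩ := exists_ringOfIntegers_eq_integralClosure286 (K := K) (L := L) A hA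
  have hBB : B = B₁ := ringOfIntegersUnique775 L B B₁ hB hB₁
  subst hBB
  exact ⟨h1, h2⟩

end Generic

/-- **UI-INT** -/
theorem integersComap775 : IntegersComapSpec := by
  intro K L _ _ _ _ _ A B hA hB x
  letI : Algebra A L := ((algebraMap K L).comp (algebraMap A K)).toAlgebra
  haveI : IsScalarTower A K L := IsScalarTower.of_algebraMap_eq (fun _ => rfl)
  exact (mem_iff_isIntegral775 A B hA hB).2 x

/-- **UI-INERTIA** -/
theorem unramifiedInertia775 : UnramifiedInertiaSpec := by
  intro K E _ _ _ _ hK hU B hB g hg
  obtain ⟨A₀, B₀, π, hA₀, hB₀, hπA, hπB⟩ := hU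
  haveI : CharZero K := IsLocalFld.charZero
  haveI : IsLocalFld E := finiteExt286 K E
  have hBB : B₀ = B := ringOfIntegersUnique775 E B₀ B hB₀ hB
  subst hBB
  letI : Algebra A₀ E := ((algebraMap K E).comp (algebraMap A₀ K)).toAlgebra
  haveI : IsScalarTower A₀ K E := IsScalarTower.of_algebraMap_eq (fun _ => rfl)
  obtain ⟨hmem, -⟩ := mem_iff_isIntegral775 A₀ B₀ hA₀ hB₀
  -- the integral closure as a ring
  obtain ⟨hloc, hdvr, hcomp, hfin⟩ :=
    isLocalRingOfIntegers_integralClosure286 (K := K) (L := E) A₀ hA₀ (integralClosure A₀ E)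
  haveI := hdvr
  haveI : Finite (ResidueField (integralClosure A₀ E)) := hfin
  haveI := hA₀.1
  haveI : Module.Finite A₀ (integralClosure A₀ E) :=
    IsIntegralClosure.finite A₀ K E (integralClosure A₀ E)
  haveI : IsFractionRing (integralClosure A₀ E) E :=
    IsIntegralClosure.isFractionRing_of_finite_extension A₀ K E _
  haveI : SMulCommClass (E ≃ₐ[K] E) A₀ E := by
    refine ⟨fun σ a x => ?_⟩
    rw [Algebra.smul_def, Algebra.smul_def, AlgEquiv.smul_def, AlgEquiv.smul_def, map_mul]
    congr 1
    show σ (algebraMap K E (algebraMap A₀ K a)) = algebraMap K E (algebraMap A₀ K a)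
    exact σ.commutes _
  haveI : FaithfulSMul (E ≃ₐ[K] E) (integralClosure A₀ E) := by
    refine ⟨fun {σ τ} h => ?_⟩
    apply AlgEquiv.ext
    intro x
    obtain ⟨a, b, hb, rfl⟩ := IsFractionRing.div_surjective (A := integralClosure A₀ E) x
    have ha' : σ (a : E) = τ (a : E) :=
      congrArg (fun t : integralClosure A₀ E => (t : E)) (h a)
    have hb' : σ (b : E) = τ (b : E) :=
      congrArg (fun t : integralClosure A₀ E => (t : E)) (h b)
    have e1 : algebraMap (integralClosure A₀ E) E a = (a : E) := rfl
    have e2 : algebraMap (integralClosure A₀ E) E b = (b : E) := rfl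
    rw [e1, e2, map_div₀, map_div₀, ha', hb']
  -- the uniformizer
  obtain ⟨hπmem, hπirr⟩ := hπB
  have hπint : algebraMap K E π ∈ integralClosure A₀ E := (hmem _).mp hπmem
  set r : integralClosure A₀ E := ⟨algebraMap K E π, hπint⟩ with hr
  have hrirr : Irreducible r := by
    -- transport irreducibility along the identification of `B₀` with the integral closure
    let e : B₀ ≃+* integralClosure A₀ E :=
      { toFun := fun x => ⟨x, (hmem _).mp x.2⟩
        invFun := fun x => ⟨x, (hmem _).mpr x.2⟩
        left_inv := fun _ => rfl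
        right_inv := fun _ => rfl
        map_mul' := fun _ _ => rfl
        map_add' := fun _ _ => rfl }
    have : r = e ⟨algebraMap K E π, hπmem⟩ := rfl
    rw [this]
    exact (MulEquiv.irreducible_iff e.toMulEquiv).mpr hπirr
  have hmax : maximalIdeal (integralClosure A₀ E) = Ideal.span {r} := hrirr.maximalIdeal_eq
  have hcard := Local.H775.card_inertia_inf_eq (A := A₀) (S := integralClosure A₀ E)
    (G := E ≃ₐ[K] E) (Subgroup.zpowers g) 1 (fun r _ hr => by simpa using hr) ⟨r, ?_, ?_, ?_⟩
  · -- `g` lies in the inertia group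
    have hgin : g ∈ (maximalIdeal (integralClosure A₀ E)).inertia (E ≃ₐ[K] E) ⊓
        Subgroup.zpowers g := by
      refine ⟨fun s => ?_, Subgroup.mem_zpowers g⟩
      show g • s - s ∈ maximalIdeal (integralClosure A₀ E)
      rw [mem_maximalIdeal, mem_nonunits_iff]
      intro hu
      have hsB : (s : E) ∈ B₀ := (hmem _).mpr s.2
      obtain ⟨ha, hmaxB⟩ :=
        ValuationSubring.mem_nonunits_iff_exists_mem_maximalIdeal.mp (hg (s : E) hsB)
      rw [mem_maximalIdeal, mem_nonunits_iff] at hmaxB
      apply hmaxB
      obtain ⟨t, ht⟩ := isUnit_iff_exists_inv.mp hu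
      refine isUnit_iff_exists_inv.mpr ⟨⟨(t : E), (hmem _).mpr t.2⟩, Subtype.ext ?_⟩
      have := congrArg (fun z : integralClosure A₀ E => (z : E)) ht
      simpa using this
    have hbot : (maximalIdeal (integralClosure A₀ E)).inertia (E ≃ₐ[K] E) ⊓
        Subgroup.zpowers g = ⊥ := Subgroup.card_eq_one.mp hcard
    rw [hbot, Subgroup.mem_bot] at hgin
    exact hgin
  · intro σ _
    apply Subtype.ext
    show σ (algebraMap K E π) = algebraMap K E π
    exact σ.commutes π
  · rw [hmax]
    exact Ideal.mem_span_singleton_self r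
  · rw [hmax, Ideal.span_singleton_pow, Ideal.mem_span_singleton]
    rintro ⟨c, hc⟩
    have h0 : r ≠ 0 := hrirr.ne_zero
    have h1 : r * (r * c) = r * 1 := by
      rw [mul_one, ← mul_assoc, ← pow_two]
      exact hc.symm
    have h2 : r * c = 1 := mul_left_cancel₀ h0 h1
    exact hrirr.not_isUnit (isUnit_iff_exists_inv.mpr ⟨c, h2⟩)

end Fermat.Agent.S55.L.UnrInv
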