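import Fermat.Agent.S55.L.UnrInv.Inputs
import Fermat.Agent.S55.L.FiniteExt286
import Fermat.Agent.S55.L.RingOfIntegersUnique775

/-!
# S55, layer L, leaf **UI-EF** (`ResidueDegreeSpec`)   (helper717)

`theorem residueDegree717 : Fermat.Agent.S55.L.UnrInv.ResidueDegreeSpec`, unconditional.

For a finite extension `K'/K` of local fields with rings of integers `A'`, `A` and uniformizers
`π'`, `π`: there are `e f` with `e * f = [K' : K]`, `π = u * π' ^ e` with `u` a unit of `A'`, and
`|k'| = |k| ^ f`.

Route: `A'` is the integral closure of `A` in `K'` (landed `FiniteExt286` + uniqueness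
`RingOfIntegersUnique775`), hence a finite `A`-algebra which is a DVR; Mathlib's fundamental
identity in the local case gives `e * f = [K' : K]` for the ramification index / inertia degree
of the maximal ideals; `e` is read off from `π A' = (π')^e` and `f = [k' : k]`.
-/

set_option autoImplicit false
set_option linter.deprecated false
set_option linter.style.haveILetI false
set_option linter.unusedSectionVars false

namespace Fermat.Agent.S55.L.UnrInv.H717

open IsLocalRing

section Abstract

variable {R S : Type} [CommRing R] [IsDomain R] [IsDiscreteValuationRing R]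
  [CommRing S] [IsDomain S] [IsDiscreteValuationRing S] [Algebra R S]

/-- In a DVR extension `R → S` (injective), with uniformizers `ϖ`, `ϖ'` and
`algebraMap ϖ = u * ϖ' ^ e`, `u` a unit, the (old-style) ramification index of the maximal
ideals is `e`. -/
theorem ramificationIdx'_eq_of_eq_unit_mul_pow {ϖ : R} {ϖ' : S} (hϖ : Irreducible ϖ)
    (hϖ' : Irreducible ϖ') {u : Sˣ} {e : ℕ} (h : algebraMap R S ϖ = u * ϖ' ^ e) :
    Ideal.ramificationIdx' (maximalIdeal R) (maximalIdeal S) = e := by
  have hp : maximalIdeal R = Ideal.span {ϖ} := hϖ.maximalIdeal_eq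
  have hP : maximalIdeal S = Ideal.span {ϖ'} := hϖ'.maximalIdeal_eq
  have hmap : Ideal.map (algebraMap R S) (maximalIdeal R) = maximalIdeal S ^ e := by
    rw [hp, Ideal.map_span, Set.image_singleton, h, hP, Ideal.span_singleton_pow]
    exact Ideal.span_singleton_eq_span_singleton.mpr
      ⟨u⁻¹, by rw [mul_comm (u : S), mul_assoc, Units.mul_inv, mul_one]⟩
  refine Ideal.ramificationIdx'_spec hmap.le ?_
  rw [hmap]
  intro hle
  have hne : maximalIdeal S ≠ ⊥ := IsDiscreteValuationRing.not_a_field S
  have hlt : maximalIdeal S ^ (e + 1) < maximalIdeal S ^ e :=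
    Ideal.pow_succ_lt_pow hne e
  exact absurd hle (not_le_of_gt hlt)

end Abstract

/-- **UI-EF**. -/
theorem residueDegree717 : ResidueDegreeSpec := by
  intro K K' _ _ _ _ hK A A' π π' hA hA' hπ hπ'
  have hchar : CharZero K := hK.charZero
  letI : Algebra A K' := ((algebraMap K K').comp (algebraMap A K)).toAlgebra
  haveI : IsScalarTower A K K' := IsScalarTower.of_algebraMap_eq (fun _ => rfl)
  obtain ⟨B, hB, hmemB, -⟩ := exists_ringOfIntegers_eq_integralClosure286 (K := K) (L := K') A hA
  haveI : IsLocalFld K' := finiteExt286 K K'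
  have hBA : A' = B := ringOfIntegersUnique775 K' A' B hA' hB
  have hmem : ∀ x : K', x ∈ A' ↔ IsIntegral A x := fun x => by rw [hBA]; exact hmemB x
  letI : Algebra A A' :=
    ((algebraMap A K').codRestrict A'.toSubring
      (fun a => (hmem _).mpr isIntegral_algebraMap)).toAlgebra
  haveI : IsScalarTower A A' K' := IsScalarTower.of_algebraMap_eq (fun _ => rfl)
  haveI : IsIntegralClosure A' A K' :=
    ⟨Subtype.val_injective, fun {x} => ⟨fun h => ⟨⟨x, (hmem x).mpr h⟩, rfl⟩,
      fun ⟨y, hy⟩ => hy ▸ (hmem _).mp y.2⟩⟩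
  haveI := hA.1
  haveI := hA'.1
  haveI : Algebra.IsSeparable K K' := inferInstance
  haveI : Module.Finite A A' := IsIntegralClosure.finite A K K' A'
  have hp0 : maximalIdeal A ≠ ⊥ := IsDiscreteValuationRing.not_a_field A
  have hef := Ideal.ramificationIdx_mul_inertiaDeg_of_isLocalRing (R := A) (S := A') K K'
    (p := maximalIdeal A) hp0
  obtain ⟨hπA, hπirr⟩ := hπ
  obtain ⟨hπA', hπ'irr⟩ := hπ'
  have hinj : Function.Injective (algebraMap A A') := by
    intro x y hxy
    have h2 : algebraMap A K' x = algebraMap A K' y := by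
      rw [IsScalarTower.algebraMap_apply A A' K', IsScalarTower.algebraMap_apply A A' K', hxy]
    have h3 : algebraMap K K' (x : K) = algebraMap K K' (y : K) := h2
    exact Subtype.ext ((algebraMap K K').injective h3)
  have hne : algebraMap A A' ⟨π, hπA⟩ ≠ 0 := by
    rw [Ne, map_eq_zero_iff _ hinj]
    exact hπirr.ne_zero
  obtain ⟨e, u, hu⟩ := IsDiscreteValuationRing.eq_unit_mul_pow_irreducible hne hπ'irr
  have he : Ideal.ramificationIdx' (maximalIdeal A) (maximalIdeal A') = e :=
    ramificationIdx'_eq_of_eq_unit_mul_pow hπirr hπ'irr hu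
  haveI : FaithfulSMul A A' := (faithfulSMul_iff_algebraMap_injective A A').mpr hinj
  haveI : IsLocalHom (algebraMap A A') := by
    haveI : Algebra.IsIntegral A A' := IsIntegralClosure.isIntegral_algebra A K'
    exact Algebra.IsIntegral.isLocalHom _ _
  haveI : (maximalIdeal A').LiesOver (maximalIdeal A) := inferInstance
  have hf : Ideal.inertiaDeg' (maximalIdeal A) (maximalIdeal A') =
      Module.finrank (A ⧸ maximalIdeal A) (A' ⧸ maximalIdeal A') :=
    Ideal.inertiaDeg'_algebraMap _ _
  refine ⟨e, Ideal.inertiaDeg' (maximalIdeal A) (maximalIdeal A'), ?_, ?_, ?_⟩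
  · rw [← he]; exact hef
  · refine ⟨((u : A') : K'), (u : A').2, ?_, ?_⟩
    · have : (((u : A') : K'))⁻¹ = (((u⁻¹ : A'ˣ) : A') : K') := by
        rw [eq_comm, ← mul_eq_one_iff_eq_inv₀ ?_]
        · have h1 : ((u⁻¹ : A'ˣ) : A') * (u : A') = 1 := Units.inv_mul u
          have h2 := congrArg (Subtype.val) h1
          exact h2
        · intro h0
          have : (u : A') = 0 := Subtype.ext h0
          exact u.ne_zero this
      rw [this]
      exact ((u⁻¹ : A'ˣ) : A').2
    · have h1 := congrArg (Subtype.val) hu
      have h2 : ((algebraMap A A' ⟨π, hπA⟩ : A') : K') = algebraMap K K' π := rfl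
      rw [← h2, h1]
      simp
  · rw [hf]
    letI : Field (A ⧸ maximalIdeal A) := Ideal.Quotient.field (maximalIdeal A)
    exact Module.natCard_eq_pow_finrank (K := A ⧸ maximalIdeal A) (V := A' ⧸ maximalIdeal A')

end Fermat.Agent.S55.L.UnrInv.H717
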