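import Fermat.Agent.S55.L.UnrInv.Pack

/-!
# S55, layer L, unramified invariants: the invariant map of a package, normalisation
-/

set_option autoImplicit false
set_option linter.style.haveILetI false

namespace Fermat.Agent.S55.L.UnrInv

open groupCohomology

theorem sub_mem_nonunits {F : Type*} [Field F] (C : ValuationSubring F) {a b : F}
    (ha : a ∈ C.nonunits) (hb : b ∈ C.nonunits) : a - b ∈ C.nonunits := by
  rw [C.mem_nonunits_iff] at ha hb ⊢
  exact lt_of_le_of_lt (Valuation.map_sub _ _ _) (max_lt ha hb)

variable {K E : Type} [Field K] [Field E] [Algebra K E]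

namespace UnrPack

variable (P : UnrPack K E)

section

variable [FiniteDimensional K E] [IsGalois K E]

theorem frob_pow_finrank : P.φ ^ Module.finrank K E = 1 := by
  rw [← IsGalois.card_aut_eq_finrank K E]
  exact pow_card_eq_one'

theorem orderOf_frob : orderOf P.φ = Module.finrank K E := by
  rw [← IsGalois.card_aut_eq_finrank K E]
  apply orderOf_eq_card_of_forall_mem_zpowers
  exact P.gen

/-- The invariant map attached to a package. -/
noncomputable def inv : H2 (unitsRep K E) →+ AddCircle (1 : ℚ) :=
  cycInv P.φ (Module.finrank K E) Module.finrank_pos P.frob_pow_finrank P.w P.w_invariant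

theorem inv_cls (c : cocycles₂ (unitsRep K E)) :
    P.inv (cls c) =
      (((P.w (cycSum P.φ (Module.finrank K E) (c : _ × _ → unitsRep K E)) : ℤ) : ℚ) /
        (Module.finrank K E : ℚ) : ℚ) :=
  cycInv_H2π _ _ _ _ _ _ c

end

/-- Uniqueness of the Frobenius. -/
theorem frob_unique [FiniteDimensional K E] [IsLocalFld K]
    (h0 : RingOfIntegersUniqueSpec) (h1 : FiniteExtSpec)
    {φ' : E ≃ₐ[K] E} (hφ' : IsFrobeniusElt K E φ') : φ' = P.φ := by
  haveI : IsLocalFld E := h1 K E
  obtain ⟨A₁, B₁, hA₁, hB₁, hfrob⟩ := hφ'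
  obtain rfl : A₁ = P.A := h0 K A₁ P.A hA₁ P.hA
  obtain rfl : B₁ = P.B := h0 E B₁ P.B hB₁ P.hB
  have key : P.φ⁻¹ * φ' = 1 := by
    apply P.inertia
    intro x hx
    have h2 : φ' x - P.φ x ∈ P.B.nonunits := by
      have := sub_mem_nonunits P.B (hfrob x hx) (P.frob x hx)
      simpa using this
    have h3 : P.φ⁻¹ (φ' x - P.φ x) ∈ P.B.nonunits := (P.galNon P.φ⁻¹ _).mpr h2
    have h4 : P.φ⁻¹ (φ' x - P.φ x) = (P.φ⁻¹ * φ') x - x := by
      rw [map_sub, AlgEquiv.mul_apply]
      congr 1
      exact P.φ.symm_apply_apply x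
    rw [← h4]
    exact h3
  have := congrArg (fun g => P.φ * g) key
  simpa [← mul_assoc] using this

/-- **Normalisation**: the class of the cyclic cocycle of `(Frobenius, uniformizer)` has
invariant `1/n`. -/
theorem inv_cyclic [FiniteDimensional K E] [IsGalois K E] [IsLocalFld K]
    (h0 : RingOfIntegersUniqueSpec) (h1 : FiniteExtSpec)
    (A' : ValuationSubring K) (hA' : IsLocalRingOfIntegers A')
    (φ' : E ≃ₐ[K] E) (hφ' : IsFrobeniusElt K E φ')
    (π : Kˣ) (hπ : IsUniformizer A' (π : K))
    (f : cocycles₂ (unitsRep K E)) (hf : IsCyclicCocycle φ' π f) :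
    P.inv (cls f) = (((Module.finrank K E : ℚ)⁻¹ : ℚ) : AddCircle (1 : ℚ)) := by
  obtain rfl : A' = P.A := h0 K A' P.A hA' P.hA
  obtain rfl : φ' = P.φ := P.frob_unique h0 h1 hφ'
  rw [P.inv_cls]
  have hn : 0 < Module.finrank K E := Module.finrank_pos
  rcases Nat.lt_or_ge 1 (Module.finrank K E) with h2 | h2
  · -- `n ≥ 2`
    obtain ⟨a, ha⟩ : ∃ a : unitsRep K E,
        a = Additive.ofMul (Units.map (algebraMap K E : K →* E) π) := ⟨_, rfl⟩
    have hf' : ∀ i j : ℕ, i < Module.finrank K E → j < Module.finrank K E →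
        (f : _ × _ → unitsRep K E) (P.φ ^ i, P.φ ^ j) =
          if i + j < Module.finrank K E then 0 else a := by
      intro i j hi hj
      rw [ha]
      exact hf i j hi hj
    have hsum : cycSum P.φ (Module.finrank K E) (f : _ × _ → unitsRep K E) = a := by
      unfold cycSum
      have hterm : ∀ i ∈ Finset.range (Module.finrank K E),
          (f : _ × _ → unitsRep K E) (P.φ ^ i, P.φ) =
            if i = Module.finrank K E - 1 then a else 0 := by
        intro i hi
        rw [Finset.mem_range] at hi
        have := hf' i 1 hi h2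
        rw [pow_one] at this
        rw [this]
        by_cases hi' : i = Module.finrank K E - 1
        · rw [if_neg (by omega), if_pos hi']
        · rw [if_pos (by omega), if_neg hi']
      rw [Finset.sum_congr rfl hterm, Finset.sum_ite_eq' (Finset.range (Module.finrank K E))
        (Module.finrank K E - 1), if_pos (Finset.mem_range.mpr (by omega))]
    rw [hsum, P.w_apply, ha]
    have : ((Additive.toMul (α := Eˣ)
        (Additive.ofMul (Units.map (algebraMap K E : K →* E) π)) : Eˣ) : E) =
          algebraMap K E (π : K) := rfl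
    rw [this, P.ordπ (π : K) hπ]
    simp [one_div]
  · -- `n = 1`
    have hn1 : Module.finrank K E = 1 := by omega
    have hφ1 : P.φ = 1 := by
      have := P.frob_pow_finrank
      rwa [hn1, pow_one] at this
    have hsum : cycSum P.φ (Module.finrank K E) (f : _ × _ → unitsRep K E) = 0 := by
      unfold cycSum
      rw [hn1, Finset.sum_range_one]
      have := hf 0 0 hn hn
      rw [if_pos (by omega), pow_zero] at this
      rw [pow_zero, hφ1]
      exact this
    rw [hsum, map_zero, hn1]
    simp only [Int.cast_zero, Nat.cast_one, div_one, inv_one]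
    rw [AddCircle.coe_zero]
    exact (AddCircle.coe_period (1 : ℚ)).symm

end UnrPack

end Fermat.Agent.S55.L.UnrInv
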