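import Fermat.Agent.S55.L.UnrInv.Congr

/-!
# S55, layer L, unramified invariants: base change

`K ⊆ K'`, `E ⊆ E'`, `K' ⊆ E'`, with `E/K` and `E'/K'` unramified Galois.  If the cocycle `c'` on
`Gal(E'/K')` is the base change of the cocycle `c` on `Gal(E/K)` then
`inv' [c'] = [K' : K] • inv [c]`.
-/

set_option autoImplicit false
set_option linter.style.haveILetI false

namespace Fermat.Agent.S55.L.UnrInv

open groupCohomology

section BaseChange

variable {K K' E E' : Type} [Field K] [Field K'] [Field E] [Field E']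
  [Algebra K K'] [Algebra K E] [Algebra K' E'] [Algebra E E'] [Algebra K E']
  [IsScalarTower K K' E'] [IsScalarTower K E E']

variable (K E) in
/-- The restriction homomorphism `Gal(E'/K') → Gal(E/K)`. -/
noncomputable def bcHom [Normal K E] : (E' ≃ₐ[K'] E') →* (E ≃ₐ[K] E) :=
  (AlgEquiv.restrictNormalHom E).comp
    (MonoidHom.mk' (fun τ : E' ≃ₐ[K'] E' => τ.restrictScalars K) (fun _ _ => rfl))

theorem bcHom_apply [Normal K E] (g : E' ≃ₐ[K'] E') :
    bcHom K E g = AlgEquiv.restrictNormalHom E (g.restrictScalars K) := rfl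

theorem algebraMap_bcHom [Normal K E] (g : E' ≃ₐ[K'] E') (x : E) :
    algebraMap E E' (bcHom K E g x) = g (algebraMap E E' x) :=
  AlgEquiv.restrictNormal_commutes (g.restrictScalars K) E x

variable [FiniteDimensional K K'] [FiniteDimensional K E] [FiniteDimensional K' E']
  [IsGalois K E] [IsGalois K' E'] [IsLocalFld K] [IsLocalFld K']

/-- The Frobenius of `E'/K'` restricts to the `f`-th power of the Frobenius of `E/K`, and the
valuation of `E'` restricts to `e` times the valuation of `E`, with `e f = [K' : K]`. -/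
theorem exists_ef (h1 : FiniteExtSpec) (hint : IntegersComapSpec) (hres : ResidueDegreeSpec)
    (P : UnrPack K E) (P' : UnrPack K' E') :
    ∃ e f : ℕ, e * f = Module.finrank K K' ∧ bcHom K E P'.φ = P.φ ^ f ∧
      ∀ y : E, y ≠ 0 → ordZ P'.B P'.hB.1 (algebraMap E E' y) = e * ordZ P.B P.hB.1 y := by
  haveI : IsLocalFld E := h1 K E
  haveI : FiniteDimensional K E' := FiniteDimensional.trans K K' E'
  haveI : FiniteDimensional E E' := FiniteDimensional.right K E E'
  obtain ⟨π, hπ⟩ := exists_isUniformizer P.A P.hA.1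
  obtain ⟨π', hπ'⟩ := exists_isUniformizer P'.A P'.hA.1
  obtain ⟨e, f, hef, ⟨u, hu, hu', hπu⟩, hq⟩ := hres K K' P.A P'.A π π' P.hA P'.hA hπ hπ'
  have hιB : ∀ x : E, algebraMap E E' x ∈ P'.B ↔ x ∈ P.B := hint E E' P.B P'.B P.hB P'.hB
  refine ⟨e, f, hef, ?_, ?_⟩
  · -- Frobenius
    apply P.eq_frob_pow
    intro x hx
    rw [← algebraMap_mem_nonunits_iff hint P.B P'.B P.hB P'.hB, map_sub, map_pow,
      algebraMap_bcHom, ← hq]
    exact P'.frob _ ((hιB x).mpr hx)
  · -- valuations
    intro y hy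
    have hπ0 : π ≠ 0 := uniformizer_ne_zero P.A hπ
    have hπ'0 : π' ≠ 0 := uniformizer_ne_zero P'.A hπ'
    have hu0 : u ≠ 0 := by
      rintro rfl
      rw [zero_mul] at hπu
      exact hπ0 ((map_eq_zero _).mp hπu)
    have h2 := ordZ_map' P.B P.hB.1 P'.B P'.hB.1 (algebraMap E E') (fun x hx => (hιB x).mpr hx)
      (P.ordπ π hπ) ((map_ne_zero _).mpr hπ0) hy
    rw [h2]
    congr 1
    have h3 : algebraMap E E' (algebraMap K E π) =
        algebraMap K' E' u * (algebraMap K' E' π') ^ e := by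
      rw [← IsScalarTower.algebraMap_apply K E E', IsScalarTower.algebraMap_apply K K' E', hπu,
        map_mul, map_pow]
    have h4 : ordZ P'.B P'.hB.1 (algebraMap K' E' u) = 0 := by
      rw [ordZ_eq_zero_iff P'.B P'.hB.1 ((map_ne_zero _).mpr hu0), ← map_inv₀]
      exact ⟨(P'.intAB u).mpr hu, (P'.intAB u⁻¹).mpr hu'⟩
    rw [h3, ordZ_mul P'.B P'.hB.1 ((map_ne_zero _).mpr hu0)
      (pow_ne_zero _ ((map_ne_zero _).mpr hπ'0)), h4, ordZ_pow, P'.ordπ π' hπ']
    ring

theorem coe_eq_coe_of_sub_eq_intCast {x y : ℚ} (k : ℤ) (h : x - y = k) :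
    (x : AddCircle (1 : ℚ)) = (y : AddCircle (1 : ℚ)) := by
  have hx : x = y + (k : ℚ) := by rw [← h]; ring
  rw [hx, AddCircle.coe_add]
  have : ((k : ℚ) : AddCircle (1 : ℚ)) = 0 := by
    rw [AddCircle.coe_eq_zero_iff]
    exact ⟨k, by simp⟩
  rw [this, add_zero]

/-- **Base change** for the invariant maps of unramified extensions. -/
theorem inv_baseChange (h1 : FiniteExtSpec) (hint : IntegersComapSpec) (hres : ResidueDegreeSpec)
    (P : UnrPack K E) (P' : UnrPack K' E')
    (c : cocycles₂ (unitsRep K E)) (c' : cocycles₂ (unitsRep K' E'))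
    (hbc : ∀ g h : E' ≃ₐ[K'] E', (c' : _ × _ → unitsRep K' E') (g, h) =
      Additive.ofMul (Units.map (algebraMap E E' : E →* E')
        (Additive.toMul (α := Eˣ)
          ((c : _ × _ → unitsRep K E) (bcHom K E g, bcHom K E h))))) :
    P'.inv (cls c') = Module.finrank K K' • P.inv (cls c) := by
  obtain ⟨e, f, hef, hφ, hord⟩ := exists_ef h1 hint hres P P'
  have hn : 0 < Module.finrank K E := Module.finrank_pos
  have hn' : 0 < Module.finrank K' E' := Module.finrank_pos
  -- order
  have hpow : (P.φ ^ f) ^ Module.finrank K' E' = 1 := by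
    rw [← hφ, ← map_pow, P'.frob_pow_finrank, map_one]
  obtain ⟨m, hm⟩ : ∃ m, f * Module.finrank K' E' = m * Module.finrank K E := by
    have : orderOf P.φ ∣ f * Module.finrank K' E' :=
      orderOf_dvd_of_pow_eq_one (by rw [pow_mul]; exact hpow)
    rw [P.orderOf_frob] at this
    obtain ⟨m, hm⟩ := this
    exact ⟨m, by rw [hm, mul_comm]⟩
  -- the sum
  have hw : P'.w (cycSum P'.φ (Module.finrank K' E') (c' : _ × _ → unitsRep K' E')) =
      e * P.w (∑ i ∈ Finset.range (Module.finrank K' E'),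
        (c : _ × _ → unitsRep K E) (P.φ ^ (f * i), P.φ ^ f)) := by
    unfold cycSum
    rw [map_sum, map_sum, Finset.mul_sum]
    apply Finset.sum_congr rfl
    intro i _
    rw [hbc, map_pow, hφ, ← pow_mul, P'.w_apply, P.w_apply]
    exact hord _ (Units.ne_zero _)
  rw [P'.inv_cls, P.inv_cls, hw,
    w_sum_pow_mul c P.φ (Module.finrank K E) f (Module.finrank K' E') m P.frob_pow_finrank hm
      P.w P.w_invariant, ← AddCircle.coe_nsmul, ← hef]
  set W := P.w (cycSum P.φ (Module.finrank K E) (c : _ × _ → unitsRep K E)) with hW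
  set Z := P.w ((c : _ × _ → unitsRep K E) (1, 1) -
    ∑ j ∈ Finset.range f, (c : _ × _ → unitsRep K E) (P.φ ^ j, P.φ)) with hZ
  apply coe_eq_coe_of_sub_eq_intCast ((e : ℤ) * Z)
  have hm' : (f : ℚ) * (Module.finrank K' E' : ℚ) = (m : ℚ) * (Module.finrank K E : ℚ) := by
    exact_mod_cast hm
  have hnq : (Module.finrank K E : ℚ) ≠ 0 := by exact_mod_cast hn.ne'
  have hnq' : (Module.finrank K' E' : ℚ) ≠ 0 := by exact_mod_cast hn'.ne'
  push_cast
  rw [nsmul_eq_mul]
  push_cast
  field_simp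
  linear_combination (-(e : ℚ) * (W : ℚ)) * hm'

end BaseChange

end Fermat.Agent.S55.L.UnrInv
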