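import Fermat.Agent.S55.L.UnrInv.Main
import Fermat.Agent.S55.L.UnrInv.Inertia775
import Fermat.Agent.S55.L.UnrInv.EF717
import Fermat.Agent.S55.L.H715.OuterClosed
import Fermat.Agent.S55.L.Unram784

/-!
# S55, layer L: `UnrInvSpec` is CLOSED (unconditional)

The invariant maps of unramified extensions of local fields, with base change, transport and
normalisation: assembled from the glue `unrInv_of` (helper54) and the landed leaves
`ringOfIntegersUnique775`, `finiteExt286`, `u784_unramifiedCyclic` (helper784),
`Local.H964.h2Cyclic` (core T5), `integersComap775`, `unramifiedInertia775` (helper775),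
`residueDegree717` (helper717).
-/

set_option autoImplicit false

namespace Fermat.Agent.S55.L.UnrInv

/-- **L-NR+BC, closed**: the invariant maps of unramified extensions exist. -/
theorem unrInv : Inv481.UnrInvSpec :=
  unrInv_of Closed.ringOfIntegersUnique Closed.finiteExt u784_unramifiedCyclic Closed.h2Cyclic
    integersComap775 unramifiedInertia775 H717.residueDegree717

end Fermat.Agent.S55.L.UnrInv
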