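import Fermat.Agent.S55.L.UnrInv.PackInv

/-!
# S55, layer L, unramified invariants: congruences modulo the maximal ideal, powers of Frobenius
-/

set_option autoImplicit false
set_option linter.style.haveILetI false

namespace Fermat.Agent.S55.L.UnrInv

theorem zero_mem_nonunits {F : Type*} [Field F] (C : ValuationSubring F) :
    (0 : F) ∈ C.nonunits := by
  rw [C.mem_nonunits_iff, map_zero]
  exact zero_lt_one

theorem add_mem_nonunits {F : Type*} [Field F] (C : ValuationSubring F) {a b : F}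
    (ha : a ∈ C.nonunits) (hb : b ∈ C.nonunits) : a + b ∈ C.nonunits := by
  rw [C.mem_nonunits_iff] at ha hb ⊢
  exact lt_of_le_of_lt (Valuation.map_add _ _ _) (max_lt ha hb)

theorem mul_mem_nonunits_of_mem {F : Type*} [Field F] (C : ValuationSubring F) {a s : F}
    (ha : a ∈ C.nonunits) (hs : s ∈ C) : a * s ∈ C.nonunits := by
  rw [C.mem_nonunits_iff] at ha ⊢
  have h1 : C.valuation s ≤ 1 := (C.valuation_le_one_iff s).mpr hs
  rw [map_mul]
  exact lt_of_le_of_lt (mul_le_of_le_one_right' h1) ha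

theorem pow_sub_pow_mem_nonunits {F : Type*} [Field F] (C : ValuationSubring F) {a b : F}
    (ha : a ∈ C) (hb : b ∈ C) (h : a - b ∈ C.nonunits) (q : ℕ) :
    a ^ q - b ^ q ∈ C.nonunits := by
  obtain ⟨s, hs⟩ := sub_dvd_pow_sub_pow (⟨a, ha⟩ : C) ⟨b, hb⟩ q
  have hs' : a ^ q - b ^ q = (a - b) * (s : F) := by
    have := congrArg (Subtype.val) hs
    simpa using this
  rw [hs']
  exact mul_mem_nonunits_of_mem C h s.2

variable {K E : Type} [Field K] [Field E] [Algebra K E]

namespace UnrPack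

variable (P : UnrPack K E)

/-- Powers of the Frobenius. -/
theorem frob_pow (f : ℕ) : ∀ x ∈ P.B,
    (P.φ ^ f) x - x ^ (Nat.card (IsLocalRing.ResidueField P.A) ^ f) ∈ P.B.nonunits := by
  induction f with
  | zero =>
    intro x _
    simp only [pow_zero, pow_one, AlgEquiv.one_apply, sub_self]
    exact zero_mem_nonunits P.B
  | succ f ih =>
    intro x hx
    set q := Nat.card (IsLocalRing.ResidueField P.A) with hq
    have hy : (P.φ ^ f) x ∈ P.B := (P.galB (P.φ ^ f) x).mpr hx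
    have h1 : P.φ ((P.φ ^ f) x) - ((P.φ ^ f) x) ^ q ∈ P.B.nonunits := P.frob _ hy
    have h2 : ((P.φ ^ f) x) ^ q - (x ^ (q ^ f)) ^ q ∈ P.B.nonunits :=
      pow_sub_pow_mem_nonunits P.B hy (P.B.pow_mem hx _) (ih x hx) q
    have h3 : (P.φ ^ (f + 1)) x - x ^ (q ^ (f + 1)) =
        (P.φ ((P.φ ^ f) x) - ((P.φ ^ f) x) ^ q) + (((P.φ ^ f) x) ^ q - (x ^ (q ^ f)) ^ q) := by
      rw [pow_succ' P.φ f, AlgEquiv.mul_apply, pow_succ q f, pow_mul]
      ring
    rw [h3]
    exact add_mem_nonunits P.B h1 h2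

/-- An automorphism which is a `q^f`-Frobenius is the `f`-th power of the Frobenius. -/
theorem eq_frob_pow (g : E ≃ₐ[K] E) (f : ℕ)
    (hg : ∀ x ∈ P.B, g x - x ^ (Nat.card (IsLocalRing.ResidueField P.A) ^ f) ∈ P.B.nonunits) :
    g = P.φ ^ f := by
  have key : (P.φ ^ f)⁻¹ * g = 1 := by
    apply P.inertia
    intro x hx
    have h2 : g x - (P.φ ^ f) x ∈ P.B.nonunits := by
      have := sub_mem_nonunits P.B (hg x hx) (P.frob_pow f x hx)
      simpa using this
    have h3 : (P.φ ^ f)⁻¹ (g x - (P.φ ^ f) x) ∈ P.B.nonunits :=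
      (P.galNon (P.φ ^ f)⁻¹ _).mpr h2
    have h4 : (P.φ ^ f)⁻¹ (g x - (P.φ ^ f) x) = ((P.φ ^ f)⁻¹ * g) x - x := by
      rw [map_sub, AlgEquiv.mul_apply]
      congr 1
      exact (P.φ ^ f).symm_apply_apply x
    rw [← h4]
    exact h3
  have := congrArg (fun t => (P.φ ^ f) * t) key
  simpa [← mul_assoc] using this

end UnrPack

end Fermat.Agent.S55.L.UnrInv
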