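import Fermat.Agent.S55.L.UnrInv.CycSum

/-!
# S55, layer L, unramified invariants: the abstract invariant map of a cyclic datum

Data: `σ : G`, `n > 0` with `σ ^ n = 1`, an additive `G`-invariant `w : A → ℤ`.
`cycInv σ n hσ w hw : H2 A →+ ℚ/ℤ` is the additive map with
`cycInv (class of c) = w (∑_{i<n} c (σ^i, σ)) / n  mod ℤ`.
-/

set_option autoImplicit false

namespace Fermat.Agent.S55.L.UnrInv

open groupCohomology CategoryTheory

variable {G : Type} [Group G] {A : Rep.{0} ℤ G}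

/-- The invariant on cocycles. -/
noncomputable def cycInvCocycle (σ : G) (n : ℕ) (w : A →+ ℤ) :
    cocycles₂ A →+ AddCircle (1 : ℚ) where
  toFun c := (((w (cycSum σ n (c : G × G → A)) : ℤ) : ℚ) / (n : ℚ) : ℚ)
  map_zero' := by
    have : ((0 : cocycles₂ A) : G × G → A) = 0 := rfl
    simp [this, cycSum_zero]
  map_add' c c' := by
    have : ((c + c' : cocycles₂ A) : G × G → A) = (c : G × G → A) + (c' : G × G → A) := rfl
    rw [this, cycSum_add, map_add, Int.cast_add, add_div, AddCircle.coe_add]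

theorem cycInvCocycle_apply (σ : G) (n : ℕ) (w : A →+ ℤ) (c : cocycles₂ A) :
    cycInvCocycle σ n w c = (((w (cycSum σ n (c : G × G → A)) : ℤ) : ℚ) / (n : ℚ) : ℚ) := rfl

theorem coe_eq_zero_of_dvd {n : ℕ} (hn : 0 < n) {k : ℤ} (h : (n : ℤ) ∣ k) :
    (((k : ℚ) / (n : ℚ) : ℚ) : AddCircle (1 : ℚ)) = 0 := by
  obtain ⟨t, rfl⟩ := h
  rw [AddCircle.coe_eq_zero_iff]
  refine ⟨t, ?_⟩
  have hn' : (n : ℚ) ≠ 0 := by exact_mod_cast hn.ne'
  push_cast
  field_simp
  simp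

theorem cycInvCocycle_eq_zero_of_mem_coboundaries₂ (σ : G) (n : ℕ) (hn : 0 < n) (hσ : σ ^ n = 1)
    (w : A →+ ℤ) (hw : ∀ (g : G) (x : A), w (A.ρ g x) = w x) (c : cocycles₂ A)
    (hc : (c : G × G → A) ∈ coboundaries₂ A) : cycInvCocycle σ n w c = 0 := by
  rw [cycInvCocycle_apply]
  exact coe_eq_zero_of_dvd hn (w_cycSum_of_mem_coboundaries₂ σ n hσ w hw _ hc)

theorem H2π_surjective : Function.Surjective (H2π A).hom :=
  (ModuleCat.epi_iff_surjective (H2π A)).1 inferInstance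

/-- The invariant map on `H²`. -/
noncomputable def cycInv (σ : G) (n : ℕ) (hn : 0 < n) (hσ : σ ^ n = 1)
    (w : A →+ ℤ) (hw : ∀ (g : G) (x : A), w (A.ρ g x) = w x) :
    H2 A →+ AddCircle (1 : ℚ) :=
  AddMonoidHom.liftOfRightInverse (H2π A).hom.toAddMonoidHom
    (Function.surjInv (H2π_surjective (A := A)))
    (Function.rightInverse_surjInv (H2π_surjective (A := A)))
    ⟨cycInvCocycle σ n w, by
      intro c hc
      rw [AddMonoidHom.mem_ker] at hc ⊢
      have hc' : (H2π A).hom c = 0 := hc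
      rw [H2π_eq_zero_iff] at hc'
      exact cycInvCocycle_eq_zero_of_mem_coboundaries₂ σ n hn hσ w hw c hc'⟩

theorem cycInv_H2π (σ : G) (n : ℕ) (hn : 0 < n) (hσ : σ ^ n = 1)
    (w : A →+ ℤ) (hw : ∀ (g : G) (x : A), w (A.ρ g x) = w x) (c : cocycles₂ A) :
    cycInv σ n hn hσ w hw ((H2π A).hom c) =
      (((w (cycSum σ n (c : G × G → A)) : ℤ) : ℚ) / (n : ℚ) : ℚ) :=
  AddMonoidHom.liftOfRightInverse_comp_apply _ _ _ _ c

end Fermat.Agent.S55.L.UnrInv
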