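import Mathlib

/-!
# S55, layer L, unramified invariants: the cyclic sum of a 2-cocycle (pure algebra)

For `σ : G`, `n : ℕ` and a 2-cochain `c : G × G → A` put `cycSum σ n c = ∑_{i<n} c (σ^i, σ)`.
If `σ ^ n = 1` and `w : A → ℤ` is additive and `G`-invariant, then `w (cycSum σ n c) mod n` only
depends on the cohomology class of the cocycle `c`; this is the isomorphism
`H²(⟨σ⟩, A) ≅ A^G / N A` made explicit, without any choice of normalised cocycles.

Main results:
* `cycSum_d₁₂`, `w_cycSum_of_mem_coboundaries₂`: the cyclic sum of a coboundary is a norm.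
* `sum_pow_mul_eq`: the base change identity
  `∑_{i<n'} c (σ^(f i), σ^f) = (f n'/n) • cycSum σ n c + ∑_{i<n'} σ^(f i) • (c (1,1) - D)`.
* `w_sum_pow_mul`: its consequence for `w`.
-/

set_option autoImplicit false

namespace Fermat.Agent.S55.L.UnrInv

open groupCohomology

variable {G : Type} [Group G] {A : Rep ℤ G}

/-- The cyclic sum `∑_{i<n} c (σ^i, σ)` of a 2-cochain. -/
def cycSum (σ : G) (n : ℕ) (c : G × G → A) : A := ∑ i ∈ Finset.range n, c (σ ^ i, σ)

theorem cycSum_add (σ : G) (n : ℕ) (c c' : G × G → A) :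
    cycSum σ n (c + c') = cycSum σ n c + cycSum σ n c' := by
  simp only [cycSum, Pi.add_apply, Finset.sum_add_distrib]

theorem cycSum_zero (σ : G) (n : ℕ) : cycSum σ n (0 : G × G → A) = 0 := by
  simp [cycSum]

/-- The cyclic sum of a coboundary is a norm. -/
theorem cycSum_d₁₂ (σ : G) (n : ℕ) (hσ : σ ^ n = 1) (b : G → A) :
    cycSum σ n ((d₁₂ A).hom b) = ∑ i ∈ Finset.range n, A.ρ (σ ^ i) (b σ) := by
  have h1 : ∀ i : ℕ, (d₁₂ A).hom b (σ ^ i, σ) =
      A.ρ (σ ^ i) (b σ) - (b (σ ^ (i + 1)) - b (σ ^ i)) := by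
    intro i
    rw [d₁₂_hom_apply]
    simp only [pow_succ]
    abel
  simp only [cycSum, h1]
  rw [Finset.sum_sub_distrib, Finset.sum_range_sub (fun i => b (σ ^ i)), hσ, pow_zero, sub_self,
    sub_zero]

/-- For an additive `G`-invariant `w`, the value of `w` on the cyclic sum of a coboundary is
divisible by `n`. -/
theorem w_cycSum_d₁₂ (σ : G) (n : ℕ) (hσ : σ ^ n = 1) (w : A →+ ℤ)
    (hw : ∀ (g : G) (x : A), w (A.ρ g x) = w x) (b : G → A) :
    w (cycSum σ n ((d₁₂ A).hom b)) = n * w (b σ) := by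
  rw [cycSum_d₁₂ σ n hσ, map_sum]
  simp only [hw, Finset.sum_const, Finset.card_range, nsmul_eq_mul]

theorem w_cycSum_of_mem_coboundaries₂ (σ : G) (n : ℕ) (hσ : σ ^ n = 1) (w : A →+ ℤ)
    (hw : ∀ (g : G) (x : A), w (A.ρ g x) = w x) (c : G × G → A) (hc : c ∈ coboundaries₂ A) :
    (n : ℤ) ∣ w (cycSum σ n c) := by
  obtain ⟨b, rfl⟩ := hc
  exact ⟨w (b σ), w_cycSum_d₁₂ σ n hσ w hw b⟩

/-- Step (a): `c (g, σ^f) = c (g, 1) + ∑_{j<f} c (g σ^j, σ) - g • ∑_{j<f} c (σ^j, σ)`. -/
theorem cocycle_pow_snd (c : cocycles₂ A) (σ g : G) (f : ℕ) :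
    c (g, σ ^ f) = c (g, 1) + ∑ j ∈ Finset.range f, c (g * σ ^ j, σ)
      - A.ρ g (∑ j ∈ Finset.range f, c (σ ^ j, σ)) := by
  induction f with
  | zero => simp
  | succ f ih =>
    have h := (mem_cocycles₂_iff (c : G × G → A)).1 c.2 g (σ ^ f) σ
    rw [Finset.sum_range_succ, Finset.sum_range_succ, map_add, pow_succ]
    have h' : c (g, σ ^ f * σ) = c (g * σ ^ f, σ) + c (g, σ ^ f) - A.ρ g (c (σ ^ f, σ)) := by
      rw [h]; abel
    rw [h', ih]
    abel

/-- Periodic sums. -/
theorem sum_range_mul_of_periodic {M : Type*} [AddCommMonoid M] (F : ℕ → M) (n : ℕ)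
    (hF : ∀ k, F (k + n) = F k) (m : ℕ) :
    ∑ k ∈ Finset.range (m * n), F k = m • ∑ k ∈ Finset.range n, F k := by
  induction m with
  | zero => simp
  | succ m ih =>
    have hper : ∀ (t k : ℕ), F (t * n + k) = F k := by
      intro t
      induction t with
      | zero => intro k; simp
      | succ t iht =>
        intro k
        rw [show (t + 1) * n + k = (t * n + k) + n by ring, hF, iht]
    rw [Nat.succ_mul, Finset.sum_range_add, ih, succ_nsmul]
    congr 1
    exact Finset.sum_congr rfl fun k _ => hper m k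

/-- Double sum as a single sum. -/
theorem sum_range_sum_range {M : Type*} [AddCommMonoid M] (F : ℕ → M) (f n' : ℕ) :
    ∑ i ∈ Finset.range n', ∑ j ∈ Finset.range f, F (f * i + j) =
      ∑ k ∈ Finset.range (f * n'), F k := by
  induction n' with
  | zero => simp
  | succ n' ih =>
    rw [Finset.sum_range_succ, ih, Nat.mul_succ, Finset.sum_range_add]

/-- **Base change identity** for the cyclic sum. -/
theorem sum_pow_mul_eq (c : cocycles₂ A) (σ : G) (n f n' m : ℕ) (hσ : σ ^ n = 1)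
    (hm : f * n' = m * n) :
    ∑ i ∈ Finset.range n', c (σ ^ (f * i), σ ^ f) =
      m • cycSum σ n c +
        ∑ i ∈ Finset.range n', A.ρ (σ ^ (f * i))
          (c (1, 1) - ∑ j ∈ Finset.range f, c (σ ^ j, σ)) := by
  have h1 : ∀ i : ℕ, c (σ ^ (f * i), σ ^ f) =
      (∑ j ∈ Finset.range f, c (σ ^ (f * i + j), σ)) +
        A.ρ (σ ^ (f * i)) (c (1, 1) - ∑ j ∈ Finset.range f, c (σ ^ j, σ)) := by
    intro i
    rw [cocycle_pow_snd c σ (σ ^ (f * i)) f, cocycles₂_map_one_snd, map_sub]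
    simp only [pow_add]
    abel
  simp only [h1, Finset.sum_add_distrib]
  congr 1
  rw [sum_range_sum_range (fun k => c (σ ^ k, σ)) f n', hm]
  exact sum_range_mul_of_periodic (fun k => c (σ ^ k, σ)) n
    (fun k => by simp only [pow_add, hσ, mul_one]) m

/-- Consequence of the base change identity for an invariant additive function. -/
theorem w_sum_pow_mul (c : cocycles₂ A) (σ : G) (n f n' m : ℕ) (hσ : σ ^ n = 1)
    (hm : f * n' = m * n) (w : A →+ ℤ) (hw : ∀ (g : G) (x : A), w (A.ρ g x) = w x) :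
    w (∑ i ∈ Finset.range n', c (σ ^ (f * i), σ ^ f)) =
      m * w (cycSum σ n c) +
        n' * w (c (1, 1) - ∑ j ∈ Finset.range f, c (σ ^ j, σ)) := by
  rw [sum_pow_mul_eq c σ n f n' m hσ hm, map_add, map_nsmul, map_sum]
  simp only [hw, Finset.sum_const, Finset.card_range, nsmul_eq_mul]

end Fermat.Agent.S55.L.UnrInv
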