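import Fermat.Agent.S55.L.UnrInv.Inputs
import Fermat.Agent.S55.L.H355.Fund

/-!
# S55, layer L, leaf UI-EF (helper355): `e f = [K' : K]`

`residueDegree355_of : IntegersComapSpec → ResidueDegreeSpec`: for a finite extension `K'/K` of
local fields with rings of integers `A ⊆ A'` and uniformizers `π`, `π'`: `π = u π' ^ e` with `u` a
unit of `A'`, `|k'| = |k| ^ f` and `e f = [K' : K]`.

The proof is the cardinality form of the fundamental identity (`H355.card_residue_pow_eq`:
`A'` is a finite free `A`-module of rank `[K' : K]` by completeness, and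
`|A' / π A'| = |k| ^ [K' : K] = |k'| ^ e`).
-/

set_option autoImplicit false
set_option linter.style.haveILetI false

namespace Fermat.Agent.S55.L.UnrInv

open Fermat.Agent.S55.L Fermat.Agent.S55.L.H355

/-- **UI-EF** from **UI-INT**. -/
theorem residueDegree355_of (hint : IntegersComapSpec) : ResidueDegreeSpec := by
  intro K K' _ _ _ _ _ A A' π π' hA hA' hπ hπ'
  classical
  haveI : IsDiscreteValuationRing A := hA.1
  haveI : IsDiscreteValuationRing A' := hA'.1
  haveI : Finite (IsLocalRing.ResidueField A) := hA.2.2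
  haveI : Finite (IsLocalRing.ResidueField A') := hA'.2.2
  have hcomap : ∀ x : K, algebraMap K K' x ∈ A' ↔ x ∈ A := hint K K' A A' hA hA'
  have hπ0 : π ≠ 0 := isUniformizer_ne_zero hπ
  have hπ'0 : π' ≠ 0 := isUniformizer_ne_zero hπ'
  have hπK' : algebraMap K K' π ≠ 0 := by simpa using hπ0
  set x : K'ˣ := Units.mk0 (algebraMap K K' π) hπK' with hx
  have hmem : algebraMap K K' π ∈ A' := (hcomap π).2 (isUniformizer_mem hπ)
  -- `π` is not a unit of `A'`
  have hlt : A'.valuation (algebraMap K K' π) < 1 := by
    rcases lt_or_eq_of_le ((A'.valuation_le_one_iff _).2 hmem) with h | h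
    · exact h
    · exfalso
      have h1 : A'.valuation (algebraMap K K' π⁻¹) ≤ 1 := by
        rw [map_inv₀, map_inv₀, h, inv_one]
      have h2 : π⁻¹ ∈ A := (hcomap _).1 ((A'.valuation_le_one_iff _).1 h1)
      have h3 : A.valuation π⁻¹ ≤ 1 := (A.valuation_le_one_iff _).2 h2
      have h4 := isUniformizer_val_lt_one hπ
      have h5 : A.valuation π * A.valuation π⁻¹ = 1 := by
        rw [← map_mul, mul_inv_cancel₀ hπ0, map_one]
      have h6 : A.valuation π * A.valuation π⁻¹ < 1 := by
        calc A.valuation π * A.valuation π⁻¹ ≤ A.valuation π * 1 := by gcongr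
          _ = A.valuation π := mul_one _
          _ < 1 := h4
      exact absurd h5 h6.ne
  have hpos : 0 < ordZ A' π' x := (ordZ_pos_iff hA'.1 hπ' x).2 ((A'.mem_nonunits_iff).2 hlt)
  obtain ⟨e, he⟩ := Int.eq_ofNat_of_zero_le hpos.le
  have he0 : 0 < e := by omega
  have hval : A'.valuation (algebraMap K K' π) = A'.valuation π' ^ e := by
    have := val_eq_zpow_ordZ hA'.1 hπ' x
    rw [he, zpow_natCast] at this
    exact this
  have hcard := card_residue_pow_eq hA hA' hπ hπ' hval he0
  -- the residue field extension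
  have hAA' : ∀ y ∈ A, algebraMap K K' y ∈ A' := fun y hy => (hcomap y).2 hy
  set ι := intHom hAA' with hι
  haveI : IsLocalHom ι := by
    refine ⟨fun a ha => ?_⟩
    obtain ⟨b, hb⟩ := ha.exists_left_inv
    have ha0 : (a : K) ≠ 0 := by
      intro h0
      have : (ι a : K') = 0 := by rw [intHom_coe, h0, map_zero]
      have h1 := congrArg Subtype.val hb
      simp only [MulMemClass.coe_mul, this, mul_zero, OneMemClass.coe_one] at h1
      exact zero_ne_one h1
    have hb' : (b : K') = algebraMap K K' (a : K)⁻¹ := by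
      have h1 := congrArg Subtype.val hb
      simp only [MulMemClass.coe_mul, intHom_coe, OneMemClass.coe_one] at h1
      rw [map_inv₀]
      exact eq_inv_of_mul_eq_one_left h1
    have h2 : (a : K)⁻¹ ∈ A := (hcomap _).1 (hb' ▸ b.2)
    exact IsUnit.of_mul_eq_one (⟨(a : K)⁻¹, h2⟩ : A) (Subtype.ext (by simp [ha0]))
  letI : Algebra (IsLocalRing.ResidueField A) (IsLocalRing.ResidueField A') :=
    (IsLocalRing.ResidueField.map ι).toAlgebra
  haveI : Module.Finite (IsLocalRing.ResidueField A) (IsLocalRing.ResidueField A') :=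
    Module.Finite.of_finite
  have hf := Module.natCard_eq_pow_finrank (K := IsLocalRing.ResidueField A)
    (V := IsLocalRing.ResidueField A')
  set f := Module.finrank (IsLocalRing.ResidueField A) (IsLocalRing.ResidueField A') with hfdef
  refine ⟨e, f, ?_, ?_, hf⟩
  · rw [hf, ← pow_mul] at hcard
    have := Nat.pow_right_injective (one_lt_card_residue hA) hcard
    rw [← this, mul_comm]
  · refine ⟨algebraMap K K' π * (π' ^ e)⁻¹, ?_, ?_, ?_⟩
    · rw [← A'.valuation_le_one_iff, map_mul, map_inv₀, map_pow, hval]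
      rw [mul_inv_cancel₀ (pow_ne_zero _ (isUniformizer_val_pos hπ').ne')]
    · rw [← A'.valuation_le_one_iff, map_inv₀, map_mul, map_inv₀, map_pow, hval]
      rw [mul_inv_cancel₀ (pow_ne_zero _ (isUniformizer_val_pos hπ').ne'), inv_one]
    · field_simp

end Fermat.Agent.S55.L.UnrInv
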