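import Fermat.Agent.S55.L.UnrInv.Inputs
import Fermat.Agent.S55.L.FiniteExt286
import Fermat.Agent.S55.L.RingOfIntegersUnique775

/-!
# S55, layer L, leaf UI-INT (helper533): `B ∩ K = A` for a finite extension of local fields

`integersComap533 : IntegersComapSpec`, unconditional: the ring of integers of `L` is unique
(`ringOfIntegersUnique775`), and one ring of integers is the integral closure of `A`, whose
trace on `K` is `A` (`exists_ringOfIntegers_eq_integralClosure286`).
-/

set_option autoImplicit false

namespace Fermat.Agent.S55.L.UnrInv.H533

open Fermat.Agent.S55.L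

/-- **UI-INT** `B ∩ K = A` for a finite extension of local fields. -/
theorem integersComap533 : IntegersComapSpec := by
  intro K L _ _ _ _ hK A B hA hB x
  have hchar : CharZero K := hK.charZero
  letI : Algebra A L := ((algebraMap K L).comp (algebraMap A K)).toAlgebra
  haveI : IsScalarTower A K L := IsScalarTower.of_algebraMap_eq (fun _ => rfl)
  obtain ⟨B', hB', -, h⟩ := exists_ringOfIntegers_eq_integralClosure286 (K := K) (L := L) A hA
  haveI : IsLocalFld L := finiteExt286 K L
  have hBB : B = B' := ringOfIntegersUnique775 L B B' hB hB'
  subst hBB
  exact h x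

/-- The ring of integers of a finite extension is the integral closure (elementwise form). -/
theorem mem_ringOfIntegers_iff_isIntegral533 (K L : Type) [Field K] [Field L] [Algebra K L]
    [FiniteDimensional K L] [IsLocalFld K] (A : ValuationSubring K) (B : ValuationSubring L)
    (hA : IsLocalRingOfIntegers A) (hB : IsLocalRingOfIntegers B)
    [Algebra A L] [IsScalarTower A K L] (x : L) : x ∈ B ↔ IsIntegral A x := by
  have hchar : CharZero K := IsLocalFld.charZero
  obtain ⟨B', hB', h, -⟩ := exists_ringOfIntegers_eq_integralClosure286 (K := K) (L := L) A hA
  haveI : IsLocalFld L := finiteExt286 K L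
  have hBB : B = B' := ringOfIntegersUnique775 L B B' hB hB'
  subst hBB
  exact h x

end Fermat.Agent.S55.L.UnrInv.H533
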