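import Fermat.Agent.S55.L.UnrInv.EF355
import Fermat.Agent.S55.L.UnrInv.Int533

/-!
# S55, layer L, leaf UI-EF (helper355): unconditional form

`residueDegree355 : ResidueDegreeSpec`, from `residueDegree355_of` and `integersComap533`.
-/

set_option autoImplicit false

namespace Fermat.Agent.S55.L.UnrInv

/-- **UI-EF** `e f = [K' : K]` for a finite extension of local fields (unconditional). -/
theorem residueDegree355 : ResidueDegreeSpec :=
  residueDegree355_of H533.integersComap533

end Fermat.Agent.S55.L.UnrInv
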