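import Fermat.Agent.S55.L.UnrInv.Ord

/-!
# S55, layer L, unramified invariants: rings of integers under isomorphisms, Frobenius elements
-/

set_option autoImplicit false
set_option linter.style.haveILetI false

namespace Fermat.Agent.S55.L.UnrInv

/-- Non-units of a valuation subring: integers whose inverse is not an integer. -/
theorem mem_nonunits_iff_mem_and_inv_not_mem {F : Type*} [Field F] (C : ValuationSubring F)
    {y : F} (hy : y ≠ 0) : y ∈ C.nonunits ↔ y ∈ C ∧ y⁻¹ ∉ C := by
  have hv : C.valuation y ≠ 0 := (Valuation.ne_zero_iff _).mpr hy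
  rw [C.mem_nonunits_iff]
  constructor
  · intro h
    refine ⟨(C.valuation_le_one_iff y).mp h.le, fun h' => ?_⟩
    have h1 : C.valuation y⁻¹ ≤ 1 := (C.valuation_le_one_iff _).mpr h'
    rw [map_inv₀] at h1
    have h2 : 1 ≤ C.valuation y := (inv_le_one₀ (zero_lt_iff.mpr hv)).mp h1
    exact absurd h (not_lt.mpr h2)
  · rintro ⟨h1, h2⟩
    have h3 : C.valuation y ≤ 1 := (C.valuation_le_one_iff y).mpr h1
    rcases h3.lt_or_eq with h | h
    · exact h
    · exfalso
      apply h2
      rw [← C.valuation_le_one_iff, map_inv₀, h, inv_one]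

section Equiv

variable {E E' : Type} [Field E] [Field E']

/-- A ring isomorphism of local fields maps integers to integers. -/
theorem mem_of_ringEquiv (hint : IntegersComapSpec) [IsLocalFld E] (e : E ≃+* E')
    (B : ValuationSubring E) (B' : ValuationSubring E')
    (hB : IsLocalRingOfIntegers B) (hB' : IsLocalRingOfIntegers B') {x : E} :
    e x ∈ B' ↔ x ∈ B := by
  letI : Algebra E E' := e.toRingHom.toAlgebra
  haveI : FiniteDimensional E E' :=
    Module.Finite.of_surjective (Algebra.linearMap E E') e.surjective
  exact hint E E' B B' hB hB' x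

/-- A ring isomorphism of local fields maps non-units to non-units. -/
theorem mem_nonunits_of_ringEquiv (hint : IntegersComapSpec) [IsLocalFld E] (e : E ≃+* E')
    (B : ValuationSubring E) (B' : ValuationSubring E')
    (hB : IsLocalRingOfIntegers B) (hB' : IsLocalRingOfIntegers B') {x : E} :
    e x ∈ B'.nonunits ↔ x ∈ B.nonunits := by
  have key : ∀ y : E, e y ∈ B' ↔ y ∈ B := fun y => mem_of_ringEquiv hint e B B' hB hB'
  by_cases hx : x = 0
  · subst hx
    simp
  rw [mem_nonunits_iff_mem_and_inv_not_mem B hx,
    mem_nonunits_iff_mem_and_inv_not_mem B' ((map_ne_zero e).mpr hx), key, ← map_inv₀, key]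

end Equiv

section Finite

variable {K L : Type} [Field K] [Field L] [Algebra K L] [FiniteDimensional K L] [IsLocalFld K]

/-- Non-units map to non-units in a finite extension. -/
theorem algebraMap_mem_nonunits_iff (hint : IntegersComapSpec)
    (A : ValuationSubring K) (B : ValuationSubring L)
    (hA : IsLocalRingOfIntegers A) (hB : IsLocalRingOfIntegers B) {x : K} :
    algebraMap K L x ∈ B.nonunits ↔ x ∈ A.nonunits := by
  have key : ∀ y : K, algebraMap K L y ∈ B ↔ y ∈ A := fun y => hint K L A B hA hB y
  by_cases hx : x = 0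
  · subst hx
    simp
  rw [mem_nonunits_iff_mem_and_inv_not_mem A hx,
    mem_nonunits_iff_mem_and_inv_not_mem B ((map_ne_zero _).mpr hx), key, ← map_inv₀, key]

end Finite

end Fermat.Agent.S55.L.UnrInv
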