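import Fermat.Agent.S55.L.UnrInv.BaseChange
import Fermat.Agent.S55.G.Rec.H541.Tame

/-!
# S55, layer L, unramified invariants: injectivity
-/

set_option autoImplicit false
set_option linter.style.haveILetI false

namespace Fermat.Agent.S55.L.UnrInv

open groupCohomology

theorem natCast_div_coe_eq_zero {n k : ℕ} (hk : k < n)
    (h : ((((k : ℚ) / (n : ℚ) : ℚ)) : AddCircle (1 : ℚ)) = 0) : k = 0 := by
  rw [AddCircle.coe_eq_zero_iff] at h
  obtain ⟨z, hz⟩ := h
  have hn : (0 : ℚ) < n := by
    have : 0 < n := by omega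
    exact_mod_cast this
  have h1 : (z : ℚ) * n = k := by
    have : (z : ℚ) = (k : ℚ) / n := by simpa using hz
    rw [this]
    field_simp
  have h2 : z * (n : ℤ) = (k : ℤ) := by exact_mod_cast h1
  have h3 : z = 0 := by
    by_contra hz0
    rcases lt_or_gt_of_ne hz0 with hneg | hpos
    · have : z * (n : ℤ) < 0 := by
        have hnz : (0 : ℤ) < n := by exact_mod_cast (by omega : 0 < n)
        exact Int.mul_neg_of_neg_of_pos hneg hnz
      omega
    · have : (n : ℤ) ≤ z * (n : ℤ) := by
        have hnz : (0 : ℤ) ≤ n := by positivity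
        nlinarith
      omega
  rw [h3, zero_mul] at h2
  exact_mod_cast h2.symm

/-- An additive map from a group of order `≤ n` to `ℚ/ℤ` taking the value `1/n` is injective. -/
theorem injective_of_card_le {G : Type*} [AddCommGroup G] [Finite G] {n : ℕ} (hn : 0 < n)
    (hcard : Nat.card G ≤ n) (ψ : G →+ AddCircle (1 : ℚ)) (g : G)
    (hg : ψ g = (((n : ℚ)⁻¹ : ℚ) : AddCircle (1 : ℚ))) : Function.Injective ψ := by
  have hψ : ∀ k : ℕ, ψ (k • g) = ((((k : ℚ) / (n : ℚ) : ℚ)) : AddCircle (1 : ℚ)) := by
    intro k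
    rw [map_nsmul, hg, ← AddCircle.coe_nsmul, nsmul_eq_mul, div_eq_mul_inv]
  have hinj : Function.Injective (fun k : Fin n => (k : ℕ) • g) := by
    have key : ∀ a b : ℕ, a ≤ b → b < n → a • g = b • g → a = b := by
      intro a b hab hb h
      have h1 : ψ ((b - a) • g) = 0 := by
        have : (b - a) • g + a • g = b • g := by
          rw [← add_nsmul, Nat.sub_add_cancel hab]
        have h2 : ψ ((b - a) • g) + ψ (a • g) = ψ (b • g) := by rw [← map_add, this]
        rw [h] at h2
        exact add_eq_right.mp h2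
      rw [hψ] at h1
      have := natCast_div_coe_eq_zero (by omega : b - a < n) h1
      omega
    intro a b h
    apply Fin.ext
    rcases le_total (a : ℕ) (b : ℕ) with hab | hab
    · exact key a b hab b.2 h
    · exact (key b a hab a.2 h.symm).symm
  have hbij : Function.Bijective (fun k : Fin n => (k : ℕ) • g) := by
    apply Function.Injective.bijective_of_nat_card_le hinj
    simpa using hcard
  rw [injective_iff_map_eq_zero]
  intro x hx
  obtain ⟨k, rfl⟩ := hbij.2 x
  simp only at hx ⊢
  rw [hψ] at hx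
  rw [natCast_div_coe_eq_zero k.2 hx, zero_smul]

variable {K E : Type} [Field K] [Field E] [Algebra K E]

namespace UnrPack

variable (P : UnrPack K E)

theorem isFrobeniusElt : IsFrobeniusElt K E P.φ := ⟨P.A, P.B, P.hA, P.hB, P.frob⟩

/-- **Injectivity** of the invariant map of an unramified extension. -/
theorem inv_injective [FiniteDimensional K E] [IsGalois K E] [IsLocalFld K]
    (h0 : RingOfIntegersUniqueSpec) (h1 : FiniteExtSpec) (h2 : H2CyclicSpec) :
    Function.Injective P.inv := by
  obtain ⟨eqv⟩ := h2 K E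
  have hn : 0 < Module.finrank K E := Module.finrank_pos
  haveI : NeZero (Module.finrank K E) := ⟨hn.ne'⟩
  haveI : Finite (H2 (unitsRep K E)) := Finite.of_equiv _ eqv.symm.toEquiv
  have hcard : Nat.card (H2 (unitsRep K E)) ≤ Module.finrank K E := by
    rw [Nat.card_congr eqv.toEquiv, Nat.card_zmod]
  obtain ⟨π, hπ⟩ := exists_isUniformizer P.A P.hA.1
  have hπ0 : π ≠ 0 := uniformizer_ne_zero P.A hπ
  exact injective_of_card_le hn hcard P.inv
    (cls (G.Rec.H541.cyclicCocycle P.φ P.gen (Units.mk0 π hπ0)))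
    (P.inv_cyclic h0 h1 P.A P.hA P.φ P.isFrobeniusElt (Units.mk0 π hπ0) hπ _
      (G.Rec.H541.isCyclicCocycle_cyclicCocycle P.φ P.gen (Units.mk0 π hπ0)))

end UnrPack

end Fermat.Agent.S55.L.UnrInv
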