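import Fermat.Agent.S55.L.SpecInv

/-!
# S55, layer L, unramified invariants (`UnrInvSpec`): number-theoretic INPUT INTERFACE

Architect / owner of the glue: helper54.  The glue `unrInv_of … : Inv481.UnrInvSpec` (file
`UnrInv/Main.lean`) takes the frozen specs `RingOfIntegersUniqueSpec`, `FiniteExtSpec`,
`UnramifiedCyclicSpec`, `H2CyclicSpec` and the three statements below.  All three are standard
facts about complete discretely valued fields with finite residue field.

* `IntegersComapSpec` (**UI-INT**): for a finite extension `L/K` of local fields with rings of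
  integers `B`, `A`: `B ∩ K = A`.
* `UnramifiedInertiaSpec` (**UI-INERTIA**): in an unramified extension the inertia group is
  trivial: an automorphism inducing the identity on the residue field is the identity.
* `ResidueDegreeSpec` (**UI-EF**): `e f = n` for a finite extension `K'/K` of local fields, where
  `π = unit * π' ^ e` and `|k'| = |k| ^ f`.
-/

set_option autoImplicit false

namespace Fermat.Agent.S55.L.UnrInv

/-- **UI-INT** `B ∩ K = A` for a finite extension of local fields. -/
def IntegersComapSpec : Prop :=
  ∀ (K L : Type) [Field K] [Field L] [Algebra K L] [FiniteDimensional K L] [IsLocalFld K]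
    (A : ValuationSubring K) (B : ValuationSubring L),
    IsLocalRingOfIntegers A → IsLocalRingOfIntegers B →
      ∀ x : K, algebraMap K L x ∈ B ↔ x ∈ A

/-- **UI-INERTIA** the inertia group of an unramified extension is trivial. -/
def UnramifiedInertiaSpec : Prop :=
  ∀ (K E : Type) [Field K] [Field E] [Algebra K E] [FiniteDimensional K E] [IsLocalFld K],
    IsUnramifiedExt K E → ∀ B : ValuationSubring E, IsLocalRingOfIntegers B →
      ∀ g : E ≃ₐ[K] E, (∀ x ∈ B, g x - x ∈ B.nonunits) → g = 1

/-- **UI-EF** ramification index and residue degree of a finite extension of local fields: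
`π = u π'^e` with `u` a unit, `|k'| = |k|^f`, and `e f = [K' : K]`. -/
def ResidueDegreeSpec : Prop :=
  ∀ (K K' : Type) [Field K] [Field K'] [Algebra K K'] [FiniteDimensional K K'] [IsLocalFld K]
    (A : ValuationSubring K) (A' : ValuationSubring K') (π : K) (π' : K'),
    IsLocalRingOfIntegers A → IsLocalRingOfIntegers A' →
    IsUniformizer A π → IsUniformizer A' π' →
    ∃ e f : ℕ, e * f = Module.finrank K K' ∧
      (∃ u : K', u ∈ A' ∧ u⁻¹ ∈ A' ∧ algebraMap K K' π = u * π' ^ e) ∧
      Nat.card (IsLocalRing.ResidueField A') = Nat.card (IsLocalRing.ResidueField A) ^ f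

end Fermat.Agent.S55.L.UnrInv
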