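import Fermat.Agent.S55.L.UnrInv.Inputs
import Fermat.Agent.S55.L.FiniteExt286
import Fermat.Agent.S55.L.RingOfIntegersUnique775

/-!
# S55, layer L, unramified invariants: UI-INT (`IntegersComapSpec`)

For a finite extension `L/K` of local fields with rings of integers `B`, `A`: `B ∩ K = A`.
Proof: the integral closure of `A` in `L` is a ring of integers of `L` which meets `K` in `A`
(`exists_ringOfIntegers_eq_integralClosure286`), and the ring of integers of `L` is unique
(`ringOfIntegersUnique775`, `finiteExt286`).
-/

set_option autoImplicit false

namespace Fermat.Agent.S55.L.UnrInv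

/-- **UI-INT** `B ∩ K = A` for a finite extension of local fields. -/
theorem integersComap203 : IntegersComapSpec := by
  intro K L _ _ _ _ hK A B hA hB x
  have hchar : CharZero K := hK.charZero
  let _ : Algebra A L := ((algebraMap K L).comp (algebraMap A K)).toAlgebra
  have : IsScalarTower A K L := IsScalarTower.of_algebraMap_eq (fun _ => rfl)
  obtain ⟨B', hB', -, hcomap⟩ :=
    exists_ringOfIntegers_eq_integralClosure286 (K := K) (L := L) A hA
  have hL : IsLocalFld L := finiteExt286 K L
  have hBB' : B = B' := ringOfIntegersUnique775 L B B' hB hB'
  rw [hBB']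
  exact hcomap x

end Fermat.Agent.S55.L.UnrInv
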