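import Fermat.Agent.S55.L.UnrInv.Transport
import Fermat.Agent.S55.L.Inv481.Inputs

/-!
# S55, layer L: the invariant maps of unramified extensions (`UnrInvSpec`)

`unrInv_of : RingOfIntegersUniqueSpec → FiniteExtSpec → UnramifiedCyclicSpec → H2CyclicSpec →
  IntegersComapSpec → UnramifiedInertiaSpec → ResidueDegreeSpec → Inv481.UnrInvSpec`.

Definition: for `E/K` unramified with Frobenius `φ`, `n = [E : K]`, and a 2-cocycle `c`,
`inv [c] = ord_E (∏_{i<n} c (φ^i, φ)) / n  mod ℤ`.
-/

set_option autoImplicit false
set_option linter.style.haveILetI false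

namespace Fermat.Agent.S55.L.UnrInv

open groupCohomology

section

variable (h0 : RingOfIntegersUniqueSpec) (h1 : FiniteExtSpec) (hcyc : UnramifiedCyclicSpec)
  (hint : IntegersComapSpec) (hin : UnramifiedInertiaSpec)

/-- the chosen package of an unramified extension -/
noncomputable def chosenPack (K E : Type) [Field K] [Field E] [Algebra K E]
    [FiniteDimensional K E] [IsLocalFld K] (hu : IsUnramifiedExt K E) : UnrPack K E :=
  Classical.choice (exists_unrPack h0 h1 hcyc hint hin hu)

open Classical in
/-- The invariant map of an unramified extension (zero if the extension is not unramified). -/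
noncomputable def unrInvMap (K E : Type) [Field K] [Field E] [Algebra K E]
    [FiniteDimensional K E] [IsGalois K E] [IsLocalFld K] :
    H2 (unitsRep K E) →+ AddCircle (1 : ℚ) :=
  if hu : IsUnramifiedExt K E then (chosenPack h0 h1 hcyc hint hin K E hu).inv else 0

theorem unrInvMap_eq (K E : Type) [Field K] [Field E] [Algebra K E]
    [FiniteDimensional K E] [IsGalois K E] [IsLocalFld K] (hu : IsUnramifiedExt K E) :
    unrInvMap h0 h1 hcyc hint hin K E = (chosenPack h0 h1 hcyc hint hin K E hu).inv := by
  unfold unrInvMap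
  rw [dif_pos hu]

end

/-- **L-NR+BC** the invariant maps of unramified extensions, with base change, transport and
normalisation. -/
theorem unrInv_of (h0 : RingOfIntegersUniqueSpec) (h1 : FiniteExtSpec)
    (hcyc : UnramifiedCyclicSpec) (h2 : H2CyclicSpec) (hint : IntegersComapSpec)
    (hin : UnramifiedInertiaSpec) (hres : ResidueDegreeSpec) : Inv481.UnrInvSpec :=
  ⟨{ inv := fun K E _ _ _ _ _ _ => unrInvMap h0 h1 hcyc hint hin K E
     inv_injective := by
      intro K E _ _ _ _ _ _ hu
      rw [unrInvMap_eq h0 h1 hcyc hint hin K E hu]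
      exact (chosenPack h0 h1 hcyc hint hin K E hu).inv_injective h0 h1 h2
     inv_baseChange := by
      intro K K' E E' _ _ _ _ _ _ _ _ _ _ _ _ _ _ _ _ _ _ hu hu' c c' hbc
      rw [unrInvMap_eq h0 h1 hcyc hint hin K E hu, unrInvMap_eq h0 h1 hcyc hint hin K' E' hu']
      exact inv_baseChange h1 hint hres _ _ c c' hbc
     inv_transport := by
      intro K E K' E' _ _ _ _ _ _ _ _ _ _ _ _ hu hu' e c hc f f' hf
      rw [unrInvMap_eq h0 h1 hcyc hint hin K E hu, unrInvMap_eq h0 h1 hcyc hint hin K' E' hu']
      exact inv_transport h1 hint hres _ _ e c hc f f' hf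
     inv_unramified := by
      intro K E _ _ _ _ _ _ hu A hA φ hφ π hπ f hf
      rw [unrInvMap_eq h0 h1 hcyc hint hin K E hu]
      exact (chosenPack h0 h1 hcyc hint hin K E hu).inv_cyclic h0 h1 A hA φ hφ π hπ f hf }⟩

end Fermat.Agent.S55.L.UnrInv
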