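import Fermat.Agent.S55.L.UnrInv.Inputs

/-!
# S55, layer L, unramified invariants: the normalised valuation `ordZ` of a local field

For a valuation subring `B` of a field `E` which is a discrete valuation ring, `ordZ B hB x : ℤ`
is the normalised valuation of `x` (`ordZ B hB 0 = 0`).
-/

set_option autoImplicit false
set_option linter.style.haveILetI false

namespace Fermat.Agent.S55.L.UnrInv

open IsDedekindDomain

variable {E : Type} [Field E]

/-- The `ℤᵐ⁰`-valued valuation attached to a discrete valuation subring. -/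
noncomputable def dvrVal (B : ValuationSubring E) (hB : IsDiscreteValuationRing B) :
    Valuation E (WithZero (Multiplicative ℤ)) :=
  haveI := hB
  (IsDiscreteValuationRing.maximalIdeal B).valuation E

/-- The normalised valuation of a discrete valuation subring. -/
noncomputable def ordZ (B : ValuationSubring E) (hB : IsDiscreteValuationRing B) (x : E) : ℤ :=
  - WithZero.log (dvrVal B hB x)

variable (B : ValuationSubring E) (hB : IsDiscreteValuationRing B)

theorem dvrVal_ne_zero {x : E} (hx : x ≠ 0) : dvrVal B hB x ≠ 0 :=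
  (Valuation.ne_zero_iff _).mpr hx

theorem ordZ_mul {x y : E} (hx : x ≠ 0) (hy : y ≠ 0) :
    ordZ B hB (x * y) = ordZ B hB x + ordZ B hB y := by
  simp only [ordZ, map_mul, WithZero.log_mul (dvrVal_ne_zero B hB hx) (dvrVal_ne_zero B hB hy)]
  ring

@[simp] theorem ordZ_one : ordZ B hB 1 = 0 := by
  simp [ordZ]

theorem ordZ_inv (x : E) : ordZ B hB x⁻¹ = - ordZ B hB x := by
  simp only [ordZ, map_inv₀, WithZero.log_inv]

theorem ordZ_pow (x : E) (n : ℕ) : ordZ B hB (x ^ n) = n * ordZ B hB x := by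
  simp only [ordZ, map_pow, WithZero.log_pow, nsmul_eq_mul]
  ring

theorem ordZ_zpow (x : E) (n : ℤ) : ordZ B hB (x ^ n) = n * ordZ B hB x := by
  simp only [ordZ, map_zpow₀, WithZero.log_zpow, smul_eq_mul]
  ring

theorem dvrVal_le_one_of_mem {x : E} (hx : x ∈ B) : dvrVal B hB x ≤ 1 := by
  haveI := hB
  exact HeightOneSpectrum.valuation_le_one (IsDiscreteValuationRing.maximalIdeal B) (⟨x, hx⟩ : B)

theorem dvrVal_lt_one_of_mem_nonunits {x : E} (hx : x ∈ B.nonunits) : dvrVal B hB x < 1 := by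
  haveI := hB
  have hxB : x ∈ B := B.nonunits_le hx
  have h := (HeightOneSpectrum.valuation_lt_one_iff_mem (K := E)
    (IsDiscreteValuationRing.maximalIdeal B) (⟨x, hxB⟩ : B)).mpr ?_
  · exact h
  · change (⟨x, hxB⟩ : B) ∈ IsLocalRing.maximalIdeal B
    rw [IsLocalRing.mem_maximalIdeal, mem_nonunits_iff]
    intro hu
    exact (B.mem_nonunits_iff_exists_mem_maximalIdeal.mp hx).elim fun h' hh => by
      have : (⟨x, h'⟩ : B) ∈ IsLocalRing.maximalIdeal B := hh
      rw [IsLocalRing.mem_maximalIdeal, mem_nonunits_iff] at this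
      exact this hu

theorem mem_of_dvrVal_le_one {x : E} (hx : dvrVal B hB x ≤ 1) : x ∈ B := by
  by_contra hxB
  have hx0 : x ≠ 0 := by
    rintro rfl
    exact hxB B.zero_mem
  have hinv : x⁻¹ ∈ B.nonunits := by
    rw [B.mem_nonunits_iff, map_inv₀]
    have : 1 < B.valuation x := by
      rw [← not_le, B.valuation_le_one_iff]
      exact hxB
    exact inv_lt_one_of_one_lt₀ this
  have h1 := dvrVal_lt_one_of_mem_nonunits B hB hinv
  rw [map_inv₀] at h1
  have h2 : dvrVal B hB x ≠ 0 := dvrVal_ne_zero B hB hx0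
  have h3 : 1 ≤ (dvrVal B hB x)⁻¹ := (one_le_inv₀ (zero_lt_iff.mpr h2)).mpr hx
  exact absurd h1 (not_lt.mpr h3)

theorem ordZ_nonneg_iff {x : E} (hx : x ≠ 0) : 0 ≤ ordZ B hB x ↔ x ∈ B := by
  have h0 := dvrVal_ne_zero B hB hx
  constructor
  · intro h
    apply mem_of_dvrVal_le_one B hB
    rw [← WithZero.exp_log h0, ← WithZero.exp_zero, WithZero.exp_le_exp]
    simp only [ordZ] at h
    omega
  · intro h
    have := dvrVal_le_one_of_mem B hB h
    rw [← WithZero.exp_log h0, ← WithZero.exp_zero, WithZero.exp_le_exp] at this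
    simp only [ordZ]
    omega

theorem ordZ_pos_iff {x : E} (hx : x ≠ 0) : 0 < ordZ B hB x ↔ x ∈ B.nonunits := by
  have h0 := dvrVal_ne_zero B hB hx
  constructor
  · intro h
    have hxB : x ∈ B := (ordZ_nonneg_iff B hB hx).mp h.le
    rw [B.mem_nonunits_iff]
    rcases (B.valuation_lt_one_or_eq_one ⟨x, hxB⟩) with h1 | h1
    · exact h1
    · exfalso
      have hinv : x⁻¹ ∈ B := by
        rw [← B.valuation_le_one_iff, map_inv₀]
        have : B.valuation x = 1 := h1
        rw [this, inv_one]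
      have := (ordZ_nonneg_iff B hB (inv_ne_zero hx)).mpr hinv
      rw [ordZ_inv] at this
      omega
  · intro h
    have := dvrVal_lt_one_of_mem_nonunits B hB h
    rw [← WithZero.exp_log h0, ← WithZero.exp_zero, WithZero.exp_lt_exp] at this
    simp only [ordZ]
    omega

theorem ordZ_eq_zero_iff {x : E} (hx : x ≠ 0) : ordZ B hB x = 0 ↔ x ∈ B ∧ x⁻¹ ∈ B := by
  rw [← ordZ_nonneg_iff B hB hx, ← ordZ_nonneg_iff B hB (inv_ne_zero hx), ordZ_inv]
  omega

theorem ordZ_uniformizer {π : E} (hπ : IsUniformizer B π) : ordZ B hB π = 1 := by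
  haveI := hB
  obtain ⟨hπB, hirr⟩ := hπ
  have h1 : (IsDiscreteValuationRing.maximalIdeal B).asIdeal = Ideal.span {(⟨π, hπB⟩ : B)} :=
    hirr.maximalIdeal_eq
  have h2 := HeightOneSpectrum.intValuation_singleton (IsDiscreteValuationRing.maximalIdeal B)
    hirr.ne_zero h1
  have h3 : dvrVal B hB π = WithZero.exp (-1) := by
    rw [← h2]
    exact HeightOneSpectrum.valuation_of_algebraMap (K := E)
      (IsDiscreteValuationRing.maximalIdeal B) (⟨π, hπB⟩ : B)
  simp [ordZ, h3]

theorem uniformizer_ne_zero {π : E} (hπ : IsUniformizer B π) : π ≠ 0 := by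
  obtain ⟨hπB, hirr⟩ := hπ
  rintro rfl
  exact hirr.ne_zero rfl

/-- Decomposition `x = u π^k`. -/
theorem ordZ_div_zpow' {π : E} (hπ1 : ordZ B hB π = 1) (hπ0 : π ≠ 0) {x : E} (hx : x ≠ 0) :
    ordZ B hB (x / π ^ (ordZ B hB x)) = 0 := by
  rw [div_eq_mul_inv, ordZ_mul B hB hx (inv_ne_zero (zpow_ne_zero _ hπ0)), ordZ_inv, ordZ_zpow,
    hπ1]
  ring

/-- Behaviour under a ring homomorphism mapping integers to integers (`π` any element of
valuation `1`). -/
theorem ordZ_map' {E' : Type} [Field E'] (B' : ValuationSubring E')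
    (hB' : IsDiscreteValuationRing B') (ι : E →+* E') (hι : ∀ x ∈ B, ι x ∈ B')
    {π : E} (hπ1 : ordZ B hB π = 1) (hπ0 : π ≠ 0) {x : E} (hx : x ≠ 0) :
    ordZ B' hB' (ι x) = ordZ B' hB' (ι π) * ordZ B hB x := by
  set k := ordZ B hB x with hk
  set u := x / π ^ k with hu
  have hu0 : u ≠ 0 := div_ne_zero hx (zpow_ne_zero _ hπ0)
  have hxu : x = u * π ^ k := by
    rw [hu, div_mul_cancel₀ _ (zpow_ne_zero _ hπ0)]
  have h1 : ordZ B hB u = 0 := ordZ_div_zpow' B hB hπ1 hπ0 hx
  obtain ⟨h2, h3⟩ := (ordZ_eq_zero_iff B hB hu0).mp h1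
  have h4 : ordZ B' hB' (ι u) = 0 := by
    rw [ordZ_eq_zero_iff B' hB' ((map_ne_zero ι).mpr hu0)]
    refine ⟨hι _ h2, ?_⟩
    rw [← map_inv₀]
    exact hι _ h3
  have h5 : ι x = ι u * (ι π) ^ k := by
    conv_lhs => rw [hxu]
    rw [map_mul, map_zpow₀]
  rw [h5, ordZ_mul B' hB' ((map_ne_zero ι).mpr hu0)
    (zpow_ne_zero _ ((map_ne_zero ι).mpr hπ0)), h4, ordZ_zpow]
  ring

/-- Behaviour under a ring homomorphism mapping integers to integers. -/
theorem ordZ_map {E' : Type} [Field E'] (B' : ValuationSubring E')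
    (hB' : IsDiscreteValuationRing B') (ι : E →+* E') (hι : ∀ x ∈ B, ι x ∈ B')
    {π : E} (hπ : IsUniformizer B π) {x : E} (hx : x ≠ 0) :
    ordZ B' hB' (ι x) = ordZ B' hB' (ι π) * ordZ B hB x :=
  ordZ_map' B hB B' hB' ι hι (ordZ_uniformizer B hB hπ) (uniformizer_ne_zero B hπ) hx

/-- Existence of uniformizers. -/
theorem exists_isUniformizer (B : ValuationSubring E) (hB : IsDiscreteValuationRing B) :
    ∃ π : E, IsUniformizer B π := by
  haveI := hB
  obtain ⟨π, hπ⟩ := IsDiscreteValuationRing.exists_irreducible B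
  exact ⟨π, π.2, hπ⟩

/-- A ring isomorphism matching the rings of integers preserves `ordZ`. -/
theorem ordZ_equiv {E' : Type} [Field E'] (B' : ValuationSubring E')
    (hB' : IsDiscreteValuationRing B') (e : E ≃+* E') (h1 : ∀ x ∈ B, e x ∈ B')
    (h2 : ∀ y ∈ B', e.symm y ∈ B) (x : E) :
    ordZ B' hB' (e x) = ordZ B hB x := by
  by_cases hx : x = 0
  · subst hx
    simp [ordZ]
  haveI := hB
  haveI := hB'
  obtain ⟨π, hπirr⟩ := IsDiscreteValuationRing.exists_irreducible B
  obtain ⟨π', hπ'irr⟩ := IsDiscreteValuationRing.exists_irreducible B'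
  have hπ : IsUniformizer B (π : E) := ⟨π.2, hπirr⟩
  have hπ' : IsUniformizer B' (π' : E') := ⟨π'.2, hπ'irr⟩
  have hπ0 := uniformizer_ne_zero B hπ
  have hπ'0 := uniformizer_ne_zero B' hπ'
  have k1 := ordZ_map B hB B' hB' e.toRingHom h1 hπ hπ0
  have k2 := ordZ_map B' hB' B hB e.symm.toRingHom h2 hπ' ((map_ne_zero e.toRingHom).mpr hπ0)
  have k3 := ordZ_map B hB B' hB' e.toRingHom h1 hπ hx
  simp only [RingEquiv.toRingHom_eq_coe, RingEquiv.coe_toRingHom, RingEquiv.symm_apply_apply]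
    at k1 k2 k3
  rw [ordZ_uniformizer B hB hπ] at k1 k2
  have k4 : 0 ≤ ordZ B' hB' (e (π : E)) :=
    (ordZ_nonneg_iff B' hB' ((map_ne_zero e).mpr hπ0)).mpr (h1 _ π.2)
  have k5 : ordZ B' hB' (e (π : E)) = 1 := by
    have : ordZ B hB (e.symm (π' : E')) * ordZ B' hB' (e (π : E)) = 1 := by
      rw [k2]
    exact Int.eq_one_of_mul_eq_one_left k4 this
  rw [k3, k5, one_mul]

end Fermat.Agent.S55.L.UnrInv
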