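import Fermat.Agent.S55.L.UnrInv.Frob
import Fermat.Agent.S55.L.UnrInv.CycInv

/-!
# S55, layer L, unramified invariants: the package of data of an unramified extension
-/

set_option autoImplicit false
set_option linter.style.haveILetI false

namespace Fermat.Agent.S55.L.UnrInv

open groupCohomology

/-- The data attached to an unramified extension `E/K` of local fields which is used to define
the invariant map. -/
structure UnrPack (K E : Type) [Field K] [Field E] [Algebra K E] where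
  /-- ring of integers of `K` -/
  A : ValuationSubring K
  /-- ring of integers of `E` -/
  B : ValuationSubring E
  hA : IsLocalRingOfIntegers A
  hB : IsLocalRingOfIntegers B
  /-- the Frobenius -/
  φ : E ≃ₐ[K] E
  frob : ∀ x ∈ B, φ x - x ^ Nat.card (IsLocalRing.ResidueField A) ∈ B.nonunits
  gen : ∀ g : E ≃ₐ[K] E, g ∈ Subgroup.zpowers φ
  ordπ : ∀ π : K, IsUniformizer A π → ordZ B hB.1 (algebraMap K E π) = 1
  galB : ∀ (g : E ≃ₐ[K] E) (x : E), g x ∈ B ↔ x ∈ B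
  galNon : ∀ (g : E ≃ₐ[K] E) (x : E), g x ∈ B.nonunits ↔ x ∈ B.nonunits
  intAB : ∀ x : K, algebraMap K E x ∈ B ↔ x ∈ A
  inertia : ∀ g : E ≃ₐ[K] E, (∀ x ∈ B, g x - x ∈ B.nonunits) → g = 1

variable {K E : Type} [Field K] [Field E] [Algebra K E]

/-- Existence of the package. -/
theorem exists_unrPack [FiniteDimensional K E] [IsLocalFld K]
    (h0 : RingOfIntegersUniqueSpec) (h1 : FiniteExtSpec)
    (hcyc : UnramifiedCyclicSpec) (hint : IntegersComapSpec) (hin : UnramifiedInertiaSpec)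
    (hu : IsUnramifiedExt K E) : Nonempty (UnrPack K E) := by
  haveI : IsLocalFld E := h1 K E
  obtain ⟨A, B, π₀, hA, hB, hπ₀A, hπ₀B⟩ := hu
  obtain ⟨-, φ, ⟨A₁, B₁, hA₁, hB₁, hfrob⟩, hgen⟩ := hcyc K E ⟨A, B, π₀, hA, hB, hπ₀A, hπ₀B⟩
  obtain rfl : A₁ = A := h0 K A₁ A hA₁ hA
  obtain rfl : B₁ = B := h0 E B₁ B hB₁ hB
  have hAB : ∀ x : K, algebraMap K E x ∈ B₁ ↔ x ∈ A₁ := hint K E A₁ B₁ hA hB
  refine ⟨⟨A₁, B₁, hA, hB, φ, hfrob, hgen, ?_, ?_, ?_, hAB, ?_⟩⟩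
  · intro π hπ
    have hπ0 : π ≠ 0 := uniformizer_ne_zero A₁ hπ
    have hπ₀0 : π₀ ≠ 0 := uniformizer_ne_zero A₁ hπ₀A
    have hu0 : π / π₀ ≠ 0 := div_ne_zero hπ0 hπ₀0
    have h1 : ordZ A₁ hA.1 (π / π₀) = 0 := by
      rw [div_eq_mul_inv, ordZ_mul A₁ hA.1 hπ0 (inv_ne_zero hπ₀0), ordZ_inv,
        ordZ_uniformizer A₁ hA.1 hπ, ordZ_uniformizer A₁ hA.1 hπ₀A]
      ring
    obtain ⟨h2, h3⟩ := (ordZ_eq_zero_iff A₁ hA.1 hu0).mp h1
    have h4 : ordZ B₁ hB.1 (algebraMap K E (π / π₀)) = 0 := by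
      rw [ordZ_eq_zero_iff B₁ hB.1 ((map_ne_zero _).mpr hu0), ← map_inv₀]
      exact ⟨(hAB _).mpr h2, (hAB _).mpr h3⟩
    have h5 : algebraMap K E π = algebraMap K E (π / π₀) * algebraMap K E π₀ := by
      rw [← map_mul, div_mul_cancel₀ _ hπ₀0]
    rw [h5, ordZ_mul B₁ hB.1 ((map_ne_zero _).mpr hu0) ((map_ne_zero _).mpr hπ₀0), h4,
      ordZ_uniformizer B₁ hB.1 hπ₀B]
    ring
  · intro g x
    exact mem_of_ringEquiv hint g.toRingEquiv B₁ B₁ hB hB
  · intro g x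
    exact mem_nonunits_of_ringEquiv hint g.toRingEquiv B₁ B₁ hB hB
  · intro g hg
    exact hin K E ⟨A₁, B₁, π₀, hA, hB, hπ₀A, hπ₀B⟩ B₁ hB g hg

namespace UnrPack

variable (P : UnrPack K E)

/-- the valuation of `E` as an additive map on the Galois module `Eˣ` -/
noncomputable def w : (unitsRep K E) →+ ℤ where
  toFun x := ordZ P.B P.hB.1 ((Additive.toMul (α := Eˣ) x : Eˣ) : E)
  map_zero' := by
    change ordZ P.B P.hB.1 ((1 : Eˣ) : E) = 0
    simp
  map_add' x y := by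
    change ordZ P.B P.hB.1
      (((Additive.toMul (α := Eˣ) x * Additive.toMul (α := Eˣ) y : Eˣ)) : E) = _
    rw [Units.val_mul, ordZ_mul P.B P.hB.1 (Units.ne_zero _) (Units.ne_zero _)]

theorem w_apply (x : unitsRep K E) :
    P.w x = ordZ P.B P.hB.1 ((Additive.toMul (α := Eˣ) x : Eˣ) : E) := rfl

theorem ordZ_gal (g : E ≃ₐ[K] E) (x : E) : ordZ P.B P.hB.1 (g x) = ordZ P.B P.hB.1 x :=
  ordZ_equiv P.B P.hB.1 P.B P.hB.1 g.toRingEquiv
    (fun x hx => (P.galB g x).mpr hx)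
    (fun y hy => by
      have := (P.galB g (g.symm y))
      rw [AlgEquiv.apply_symm_apply] at this
      exact this.mp hy) x

theorem w_invariant (g : E ≃ₐ[K] E) (x : unitsRep K E) :
    P.w ((unitsRep K E).ρ g x) = P.w x :=
  P.ordZ_gal g _

end UnrPack

end Fermat.Agent.S55.L.UnrInv
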