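import Fermat.Agent.S55.L.UnrInv.Inj

/-!
# S55, layer L, unramified invariants: transport along isomorphisms
-/

set_option autoImplicit false
set_option linter.style.haveILetI false

namespace Fermat.Agent.S55.L.UnrInv

open groupCohomology

section Residue

variable {K E : Type} [Field K] [Field E] [Algebra K E]

/-- The residue field of an unramified extension of degree `n` has `q ^ n` elements. -/
theorem UnrPack.card_residue [FiniteDimensional K E] [IsLocalFld K] (hres : ResidueDegreeSpec)
    (P : UnrPack K E) :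
    Nat.card (IsLocalRing.ResidueField P.B) =
      Nat.card (IsLocalRing.ResidueField P.A) ^ Module.finrank K E := by
  obtain ⟨π, hπ⟩ := exists_isUniformizer P.A P.hA.1
  obtain ⟨π', hπ'⟩ := exists_isUniformizer P.B P.hB.1
  obtain ⟨e, f, hef, ⟨u, hu, hu', hπu⟩, hq⟩ := hres K E P.A P.B π π' P.hA P.hB hπ hπ'
  have hπ0 : π ≠ 0 := uniformizer_ne_zero P.A hπ
  have hπ'0 : π' ≠ 0 := uniformizer_ne_zero P.B hπ'
  have hu0 : u ≠ 0 := by
    rintro rfl
    rw [zero_mul] at hπu
    exact hπ0 ((map_eq_zero _).mp hπu)
  have h1 := P.ordπ π hπ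
  rw [hπu, ordZ_mul P.B P.hB.1 hu0 (pow_ne_zero _ hπ'0), ordZ_pow,
    ordZ_uniformizer P.B P.hB.1 hπ', (ordZ_eq_zero_iff P.B P.hB.1 hu0).mpr ⟨hu, hu'⟩] at h1
  have he : e = 1 := by
    have : (e : ℤ) = 1 := by linarith
    exact_mod_cast this
  rw [he, one_mul] at hef
  rw [hq, hef]

variable {E' : Type} [Field E']

/-- Isomorphic local fields have residue fields of the same cardinality. -/
theorem card_residue_of_ringEquiv (hres : ResidueDegreeSpec) [IsLocalFld E] (e : E ≃+* E')
    (B : ValuationSubring E) (B' : ValuationSubring E')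
    (hB : IsLocalRingOfIntegers B) (hB' : IsLocalRingOfIntegers B') :
    Nat.card (IsLocalRing.ResidueField B') = Nat.card (IsLocalRing.ResidueField B) := by
  letI : Algebra E E' := e.toRingHom.toAlgebra
  haveI : FiniteDimensional E E' :=
    Module.Finite.of_surjective (Algebra.linearMap E E') e.surjective
  have hrank : Module.finrank E E' = 1 := by
    have hbij : Function.Bijective (Algebra.linearMap E E') := e.bijective
    have := (LinearEquiv.ofBijective (Algebra.linearMap E E') hbij).finrank_eq
    rw [← this, Module.finrank_self]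
  obtain ⟨π, hπ⟩ := exists_isUniformizer B hB.1
  obtain ⟨π', hπ'⟩ := exists_isUniformizer B' hB'.1
  obtain ⟨e₁, f₁, hef, -, hq⟩ := hres E E' B B' π π' hB hB' hπ hπ'
  rw [hrank] at hef
  have hf : f₁ = 1 := Nat.eq_one_of_mul_eq_one_left hef
  rw [hq, hf, pow_one]

end Residue

section Transport

variable {K E K' E' : Type} [Field K] [Field E] [Algebra K E] [Field K'] [Field E']
  [Algebra K' E'] [FiniteDimensional K E] [FiniteDimensional K' E'] [IsGalois K E]
  [IsGalois K' E'] [IsLocalFld K] [IsLocalFld K']

/-- **Transport** of the invariant maps of unramified extensions along isomorphisms. -/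
theorem inv_transport (h1 : FiniteExtSpec) (hint : IntegersComapSpec) (hres : ResidueDegreeSpec)
    (P : UnrPack K E) (P' : UnrPack K' E')
    (e : E ≃+* E') (c : (E ≃ₐ[K] E) ≃* (E' ≃ₐ[K'] E'))
    (hc : ∀ (g : E ≃ₐ[K] E) (x : E), c g (e x) = e (g x))
    (f : cocycles₂ (unitsRep K E)) (f' : cocycles₂ (unitsRep K' E'))
    (hf : ∀ g h : E ≃ₐ[K] E, (f' : _ × _ → unitsRep K' E') (c g, c h) =
      Additive.ofMul (Units.map (e : E →* E')
        (Additive.toMul (α := Eˣ) ((f : _ × _ → unitsRep K E) (g, h))))) :
    P'.inv (cls f') = P.inv (cls f) := by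
  haveI : IsLocalFld E := h1 K E
  have hn : 0 < Module.finrank K E := Module.finrank_pos
  -- degrees
  have hnn : Module.finrank K' E' = Module.finrank K E := by
    rw [← IsGalois.card_aut_eq_finrank K E, ← IsGalois.card_aut_eq_finrank K' E']
    exact (Nat.card_congr c.toEquiv).symm
  -- residue fields
  have hq : Nat.card (IsLocalRing.ResidueField P'.A) = Nat.card (IsLocalRing.ResidueField P.A) := by
    have h2 := P.card_residue hres
    have h3 := P'.card_residue hres
    rw [card_residue_of_ringEquiv hres e P.B P'.B P.hB P'.hB, h2, hnn] at h3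
    exact (Nat.pow_left_injective hn.ne' h3).symm
  have hB : ∀ x : E, e x ∈ P'.B ↔ x ∈ P.B := fun x => mem_of_ringEquiv hint e P.B P'.B P.hB P'.hB
  -- Frobenius
  have hφ : c P.φ = P'.φ := by
    have := P'.eq_frob_pow (c P.φ) 1 ?_
    · rw [this, pow_one]
    · intro y hy
      obtain ⟨x, rfl⟩ := e.surjective y
      have hx : x ∈ P.B := (hB x).mp hy
      rw [hc, pow_one, hq, ← map_pow, ← map_sub]
      exact (mem_nonunits_of_ringEquiv hint e P.B P'.B P.hB P'.hB).mpr (P.frob x hx)
  -- the sum
  have hw : P'.w (cycSum P'.φ (Module.finrank K' E') (f' : _ × _ → unitsRep K' E')) =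
      P.w (cycSum P.φ (Module.finrank K E) (f : _ × _ → unitsRep K E)) := by
    unfold cycSum
    rw [hnn, map_sum, map_sum]
    apply Finset.sum_congr rfl
    intro i _
    rw [← hφ, ← map_pow, hf, P'.w_apply, P.w_apply]
    exact ordZ_equiv P.B P.hB.1 P'.B P'.hB.1 e (fun x hx => (hB x).mpr hx)
      (fun y hy => by
        have := hB (e.symm y)
        rw [RingEquiv.apply_symm_apply] at this
        exact this.mp hy) _
  rw [P'.inv_cls, P.inv_cls, hw, hnn]

end Transport

end Fermat.Agent.S55.L.UnrInv
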